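import Fermat.Agent.S43Glue.FreyRep
import Fermat.Agent.GalRep.Final

set_option autoImplicit false
set_option maxHeartbeats 400000
set_option linter.style.haveILetI false

/-! Dictionary between eigenforms, Hecke algebra homomorphisms and mod `p` representations. -/

namespace Fermat.Agent.S43Glue

open Fermat.Agent.GalRep CuspForm CongruenceSubgroup

local notation "Qbar" => AlgebraicClosure ℚ
local notation "GQ" => Qbar ≃ₐ[ℚ] Qbar

section Ext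

/-- extension of ring homomorphisms to algebraically closed fields along integral extensions -/
theorem exists_extension {A B K : Type*} [CommRing A] [CommRing B] [Field K] [IsAlgClosed K]
    (ι : A →+* B) (hinj : Function.Injective ι) (hint : ι.IsIntegral) (φ : A →+* K) :
    ∃ ψ : B →+* K, ψ.comp ι = φ := by
  letI : Algebra A B := ι.toAlgebra
  haveI : Algebra.IsIntegral A B := ⟨hint⟩
  let P := RingHom.ker φ
  haveI hP : P.IsPrime := RingHom.ker_isPrime φ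
  obtain ⟨Q, -, hQ, hQP⟩ := Ideal.exists_ideal_over_prime_of_isIntegral (S := B) P ⊥ (by
    rw [← RingHom.ker_eq_comap_bot]
    intro x hx
    have hx' : ι x = 0 := hx
    have : x = 0 := hinj (by rw [hx', map_zero])
    rw [this]
    exact P.zero_mem)
  haveI := hQ
  haveI : IsDomain (A ⧸ P) := Ideal.Quotient.isDomain P
  haveI : IsDomain (B ⧸ Q) := Ideal.Quotient.isDomain Q
  let j : (A ⧸ P) →+* (B ⧸ Q) := Ideal.quotientMap Q ι (by rw [← hQP]; exact le_rfl)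
  have hj : Function.Injective j := Ideal.quotientMap_injective' (by rw [← hQP]; exact le_rfl)
  letI : Algebra (A ⧸ P) (B ⧸ Q) := j.toAlgebra
  haveI : Module.IsTorsionFree (A ⧸ P) (B ⧸ Q) :=
    Module.isTorsionFree_iff_algebraMap_injective.mpr hj
  let φ' : (A ⧸ P) →+* K := RingHom.kerLift φ
  letI : Algebra (A ⧸ P) K := φ'.toAlgebra
  haveI : Module.IsTorsionFree (A ⧸ P) K :=
    Module.isTorsionFree_iff_algebraMap_injective.mpr (RingHom.kerLift_injective φ)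
  haveI : Algebra.IsAlgebraic (A ⧸ P) (B ⧸ Q) := by
    haveI : Algebra.IsIntegral (A ⧸ P) (B ⧸ Q) := by
      refine ⟨fun x => ?_⟩
      obtain ⟨b, rfl⟩ := Ideal.Quotient.mk_surjective x
      obtain ⟨f, hf, hfb⟩ := hint b
      refine ⟨f.map (Ideal.Quotient.mk P), hf.map _, ?_⟩
      rw [Polynomial.eval₂_map]
      have h1 : (algebraMap (A ⧸ P) (B ⧸ Q)).comp (Ideal.Quotient.mk P) =
          (Ideal.Quotient.mk Q).comp ι := by
        ext a
        rfl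
      rw [h1, ← Polynomial.hom_eval₂, hfb, map_zero]
    infer_instance
  let L : (B ⧸ Q) →ₐ[A ⧸ P] K := IsAlgClosed.lift
  refine ⟨L.toRingHom.comp (Ideal.Quotient.mk Q), ?_⟩
  ext a
  have h1 := L.commutes (Ideal.Quotient.mk P a)
  exact h1

end Ext

section Trace

variable {k : Type} [Field k]

/-- traces of representations of finite level are determined by almost all Frobenius elements -/
theorem trace_eq_of_frob {T₁ T₂ : GQ →* Matrix (Fin 2) (Fin 2) k} (h₁ : FinLevel T₁)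
    (h₂ : FinLevel T₂) (S : Set ℕ) (hS : S.Finite)
    (h : ∀ ℓ : ℕ, ℓ.Prime → ℓ ∉ S → ∀ A : ValuationSubring Qbar, A.LiesOverPrime ℓ →
      ∀ τ : GQ, A.IsFrobeniusAt τ ℓ → (T₁ τ).trace = (T₂ τ).trace ∧ (T₁ τ).det = (T₂ τ).det)
    (g : GQ) : (T₁ g).trace = (T₂ g).trace := by
  obtain ⟨L₁, hL₁, e₁⟩ := h₁
  obtain ⟨L₂, hL₂, e₂⟩ := h₂
  obtain ⟨ℓ, hℓ, hℓS, A, hA, τ, hτ, m, -, hm, -⟩ := FrobDens.exists_frobenius (L₁ ⊔ L₂) S hS g
  obtain ⟨h3, h4⟩ := h ℓ hℓ hℓS A hA τ hτ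
  rw [← FinLevel.congr e₁ fun x hx => hm x (le_sup_left (a := L₁) hx),
    ← FinLevel.congr e₂ fun x hx => hm x (le_sup_right (a := L₁) hx), map_pow, map_pow,
    trace_pow_two, trace_pow_two, h3, h4]

end Trace

section HMod

variable {p : ℕ} [hp : Fact p.Prime] {k : Type} [Field k] [CharP k p]

/-- `ρ` is modular of level `M` (in terms of the Hecke algebra away from `S`) -/
def HMod (ρ : GQ →* Matrix (Fin 2) (Fin 2) k) (M : ℕ) [NeZero M] (S : Set ℕ) : Prop :=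
  ∃ θ : heckeAlgebra M 2 S →+* k, ∀ (ℓ : ℕ) (hℓ : ℓ.Prime) (hℓM : ¬ ℓ ∣ M) (hℓS : ℓ ∉ S),
    ∀ A : ValuationSubring Qbar, A.LiesOverPrime ℓ → ∀ τ : GQ, A.IsFrobeniusAt τ ℓ →
      (ρ τ).trace = θ (heckeAlgebra.T hℓ hℓM hℓS)

lemma HMod.mono {ρ : GQ →* Matrix (Fin 2) (Fin 2) k} {M : ℕ} [NeZero M] {S S' : Set ℕ}
    (h : HMod ρ M S) (hSS : S ⊆ S') : HMod ρ M S' := by
  obtain ⟨θ, hθ⟩ := h
  refine ⟨θ.comp (Subalgebra.inclusion (heckeAlgebra_mono hSS)).toRingHom, ?_⟩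
  intro ℓ hℓ hℓM hℓS A hA τ hτ
  exact hθ ℓ hℓ hℓM (fun h => hℓS (hSS h)) A hA τ hτ

/-- the representation attached to a homomorphism of the Hecke algebra to a field of
characteristic `p` -/
theorem exists_rep_of_heckeHom {M : ℕ} [NeZero M] {S : Set ℕ} (hS : S.Finite)
    (θ : heckeAlgebra M 2 S →+* k) :
    ∃ T : GQ →* Matrix (Fin 2) (Fin 2) k, FinLevel T ∧
      (∀ (ℓ : ℕ) (hℓ : ℓ.Prime) (hℓM : ¬ ℓ ∣ M) (_ : ℓ ≠ p) (hℓS : ℓ ∉ S),
        ∀ A : ValuationSubring Qbar, A.LiesOverPrime ℓ → ∀ τ : GQ, A.IsFrobeniusAt τ ℓ →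
          (T τ).trace = θ (heckeAlgebra.T hℓ hℓM hℓS) ∧ (T τ).det = (ℓ : k)) ∧
      (∀ q : ℕ, q.Prime → ¬ q ∣ M → q ≠ p → ∀ A : ValuationSubring Qbar, A.LiesOverPrime q →
        ∀ σ ∈ A.inertiaSubgroupIn ℚ, T σ = 1) := by
  obtain ⟨D, hD⟩ := exists_link M p
  obtain ⟨T, hT, hfr, hin⟩ := HData.exists_residual (D := D) (S := S) hS
    (NeZero.ne M) (θ.comp (HData.Phi S hD))
  have hMp : ∀ ℓ : ℕ, ℓ.Prime → ¬ ℓ ∣ M → ℓ ≠ p → ¬ ℓ ∣ M * p := by
    intro ℓ hℓ hℓM hℓp h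
    rcases hℓ.dvd_mul.mp h with h | h
    · exact hℓM h
    · exact hℓp ((Nat.prime_dvd_prime_iff_eq hℓ hp.out).mp h)
  refine ⟨T, hT, fun ℓ hℓ hℓM hℓp hℓS A hA τ hτ => ?_, fun q hq hqM hqp => hin q hq (hMp q hq hqM hqp)⟩
  obtain ⟨h1, h2⟩ := hfr ℓ hℓ (hMp ℓ hℓ hℓM hℓp) hℓS A hA τ hτ
  rw [RingHom.comp_apply, HData.Phi_T _ hD hℓ (hMp ℓ hℓ hℓM hℓp) hℓS] at h1
  exact ⟨h1, h2⟩

/-- the image of a ring generated by elements with values in a subfield -/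
lemma heckeAlgebra_range_le {M : ℕ} [NeZero M] {S : Set ℕ} {K : Type*} [Field K]
    (θ : heckeAlgebra M 2 S →+* K) (F : Subfield K)
    (hT : ∀ (ℓ : ℕ) (hℓ : ℓ.Prime) (hℓM : ¬ ℓ ∣ M) (hℓS : ℓ ∉ S),
      θ (heckeAlgebra.T hℓ hℓM hℓS) ∈ F) (hM : ∀ q : ℕ, q.Prime → q ∣ M → q ∈ S)
    (x : heckeAlgebra M 2 S) : θ x ∈ F := by
  obtain ⟨x, hx⟩ := x
  refine Algebra.adjoin_induction (p := fun x hx => θ ⟨x, hx⟩ ∈ F) ?_ ?_ ?_ ?_ hx
  · rintro t (⟨ℓ, hℓ, hℓN, hℓS, rfl⟩ | ⟨q, hqN, hq, hqS, rfl⟩)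
    · exact hT ℓ hℓ hℓN hℓS
    · exact absurd (hM q hq hqN) hqS
  · intro r
    have h1 : θ (algebraMap ℤ (heckeAlgebra M 2 S) r) ∈ F := by
      rw [eq_intCast, map_intCast]
      exact F.intCast_mem r
    exact h1
  · intro x y hx hy h1 h2
    have h3 : θ (⟨x, hx⟩ + ⟨y, hy⟩) ∈ F := by
      rw [map_add]; exact F.add_mem h1 h2
    exact h3
  · intro x y hx hy h1 h2
    have h3 : θ (⟨x, hx⟩ * ⟨y, hy⟩) ∈ F := by
      rw [map_mul]; exact F.mul_mem h1 h2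
    exact h3

omit hp in
/-- the Hecke algebra is integral over the one with fewer operators -/
lemma inclusion_isIntegral {M : ℕ} [NeZero M] {S S' : Set ℕ} (hSS : S' ⊆ S) :
    (Subalgebra.inclusion (heckeAlgebra_mono (N := M) (k := 2) hSS)).toRingHom.IsIntegral := by
  haveI : Module.Finite ℤ (heckeAlgebra M 2 S') := Fermat.Agent.S22.result M 2 S'
  intro x
  obtain ⟨f, hf, hfx⟩ := Algebra.IsIntegral.isIntegral (R := ℤ) x
  refine ⟨f.map (algebraMap ℤ _), hf.map _, ?_⟩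
  rw [Polynomial.eval₂_map]
  have : (Subalgebra.inclusion (heckeAlgebra_mono (N := M) (k := 2) hSS)).toRingHom.comp
      (algebraMap ℤ (heckeAlgebra M 2 S)) = algebraMap ℤ (heckeAlgebra M 2 S') := RingHom.ext_int _ _
  rw [this]
  exact hfx

/-- one may remove primes from `S` -/
theorem HMod.shrink {ρ : GQ →* Matrix (Fin 2) (Fin 2) (ZMod p)} (hρ : FinLevel ρ)
    (hdet : ∀ g, (ρ g).det = chiK p (ZMod p) g) {M : ℕ} [NeZero M]
    {S S' : Set ℕ} (hS : S.Finite) (h : HMod ρ M S) (hSS : S' ⊆ S) (hpS : p ∈ S')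
    (hM : ∀ q : ℕ, q.Prime → q ∣ M → q ∈ S') : HMod ρ M S' := by
  obtain ⟨θ, hθ⟩ := h
  let K := AlgebraicClosure (ZMod p)
  haveI : CharP K p := charP_of_injective_algebraMap (algebraMap (ZMod p) K).injective p
  obtain ⟨ψ, hψ⟩ := exists_extension
    (Subalgebra.inclusion (heckeAlgebra_mono (N := M) (k := 2) hSS)).toRingHom
    (Subalgebra.inclusion_injective _) (inclusion_isIntegral hSS) ((algebraMap (ZMod p) K).comp θ)
  obtain ⟨T, hT, hfr, -⟩ := exists_rep_of_heckeHom (p := p) (hS.subset hSS) ψ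
  let ρK : GQ →* Matrix (Fin 2) (Fin 2) K := ((algebraMap (ZMod p) K).mapMatrix).toMonoidHom.comp ρ
  have hρK : FinLevel ρK := by
    obtain ⟨L, hL, h⟩ := hρ
    refine ⟨L, hL, fun σ hσ => ?_⟩
    show (algebraMap (ZMod p) K).mapMatrix (ρ σ) = 1
    rw [h σ hσ, map_one]
  have htrK : ∀ g, (ρK g).trace = algebraMap (ZMod p) K (ρ g).trace := by
    intro g
    show ((algebraMap (ZMod p) K).mapMatrix (ρ g)).trace = _
    rw [Matrix.trace_fin_two, Matrix.trace_fin_two, map_add]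
    rfl
  have hdetK : ∀ g, (ρK g).det = algebraMap (ZMod p) K (ρ g).det := by
    intro g
    show ((algebraMap (ZMod p) K).mapMatrix (ρ g)).det = _
    rw [RingHom.map_det]
  have hMfin : {q : ℕ | q ∣ M}.Finite := (Set.finite_le_nat M).subset fun q hq =>
    Nat.le_of_dvd (NeZero.pos M) hq
  have htr : ∀ g, (T g).trace = (ρK g).trace := by
    intro g
    refine trace_eq_of_frob hT hρK (S ∪ {q | q ∣ M}) (hS.union hMfin) ?_ g
    intro ℓ hℓ hℓS A hA τ hτ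
    have hℓS1 : ℓ ∉ S := fun h => hℓS (Or.inl h)
    have hℓM : ¬ ℓ ∣ M := fun h => hℓS (Or.inr h)
    have hℓp : ℓ ≠ p := fun h => hℓS1 (hSS (h ▸ hpS))
    obtain ⟨h1, h2⟩ := hfr ℓ hℓ hℓM hℓp (fun h => hℓS1 (hSS h)) A hA τ hτ
    refine ⟨?_, ?_⟩
    · rw [h1, htrK, hθ ℓ hℓ hℓM hℓS1 A hA τ hτ]
      exact DFunLike.congr_fun hψ (heckeAlgebra.T hℓ hℓM hℓS1)
    · rw [h2, hdetK, hdet, chiK_frob p _ hℓ hA hℓp hτ, map_natCast]
  -- the values of `ψ` are in the prime field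
  have hval : ∀ (ℓ : ℕ) (hℓ : ℓ.Prime) (hℓM : ¬ ℓ ∣ M) (hℓS : ℓ ∉ S'),
      ∀ A : ValuationSubring Qbar, A.LiesOverPrime ℓ → ∀ τ : GQ, A.IsFrobeniusAt τ ℓ →
      ψ (heckeAlgebra.T hℓ hℓM hℓS) = algebraMap (ZMod p) K (ρ τ).trace := by
    intro ℓ hℓ hℓM hℓS A hA τ hτ
    have hℓp : ℓ ≠ p := fun h => hℓS (h ▸ hpS)
    rw [← (hfr ℓ hℓ hℓM hℓp hℓS A hA τ hτ).1, htr, htrK]
  have hrange : ∀ x, ψ x ∈ (algebraMap (ZMod p) K).fieldRange := by
    intro x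
    refine heckeAlgebra_range_le ψ _ (fun ℓ hℓ hℓM hℓS => ?_) hM x
    obtain ⟨A, hA, τ, hτ⟩ := Frob.exists_place_frobenius hℓ
    rw [hval ℓ hℓ hℓM hℓS A hA τ hτ]
    exact ⟨_, rfl⟩
  choose θ' hθ' using hrange
  have hinj : Function.Injective (algebraMap (ZMod p) K) := (algebraMap (ZMod p) K).injective
  refine ⟨{ toFun := θ', map_one' := ?_, map_mul' := ?_, map_zero' := ?_, map_add' := ?_ }, ?_⟩
  · apply hinj
    rw [hθ', map_one, map_one]
  · intro x y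
    apply hinj
    rw [map_mul, hθ', hθ', hθ', map_mul]
  · apply hinj
    rw [hθ', map_zero, map_zero]
  · intro x y
    apply hinj
    rw [map_add, hθ', hθ', hθ', map_add]
  · intro ℓ hℓ hℓM hℓS A hA τ hτ
    apply hinj
    show _ = algebraMap (ZMod p) K (θ' _)
    rw [hθ', hval ℓ hℓ hℓM hℓS A hA τ hτ]

end HMod

end Fermat.Agent.S43Glue
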