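import Fermat.Agent.S43Glue.Point
import Fermat.Agent.S07
import Fermat.Agent.S08
import Fermat.Agent.TWPatch.ULim
import Fermat.Prelude.Def_FreyPackage_IsConductorLevel

set_option autoImplicit false
set_option maxHeartbeats 400000
set_option linter.style.haveILetI false

/-! Level lowering for Frey curves from Mazur's principle, Taylor–Wiles and ramification of newforms
(G3). -/

namespace Fermat.Agent.S43Glue

open Fermat.Agent.GalRep CuspForm CongruenceSubgroup ModularFormClass IsLocalRing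
open Fermat.Agent.DefRing (MatCont)
open Fermat.Agent.TWPatch (CNL)

local notation "Qbar" => AlgebraicClosure ℚ
local notation "GQ" => Qbar ≃ₐ[ℚ] Qbar

/-- **Mazur's principle** (hypothesis): if `ρ` is absolutely irreducible, unramified at `q` and
modular of level `M q`, then it is modular of level `M` or `q ≡ 1 mod p` and `ρ(Frob_q) = ± 1`. -/
def MazurPrinciple (p : ℕ) [Fact p.Prime] : Prop :=
  ∀ (M q : ℕ) [NeZero M] [NeZero (M * q)] (S : Set ℕ)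
    (ρ : GQ →* Matrix (Fin 2) (Fin 2) (ZMod p)),
    q.Prime → ¬ q ∣ M → q ≠ p → q ≠ 2 → S.Finite → p ∈ S → (∀ r : ℕ, r.Prime → r ∣ M * q → r ∈ S) →
    FinLevel ρ → (∀ g, (ρ g).det = chiK p (ZMod p) g) →
    Submodule.span (ZMod p) (Set.range ρ) = ⊤ →
    (∀ A : ValuationSubring Qbar, A.LiesOverPrime q → ∀ σ ∈ A.inertiaSubgroupIn ℚ, ρ σ = 1) →
    HMod ρ (M * q) S →
      HMod ρ M S ∨ (p ∣ q - 1 ∧ ∀ A : ValuationSubring Qbar, A.LiesOverPrime q →
        ∀ τ : GQ, A.IsFrobeniusAt τ q → ρ τ = 1 ∨ ρ τ = -1)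

/-- **The Taylor–Wiles core** (hypothesis) -/
def TWCore (p : ℕ) [Fact p.Prime] : Prop :=
  ∀ (M : ℕ) [NeZero M] (S : Set ℕ) (ρ : GQ →* Matrix (Fin 2) (Fin 2) (ZMod p)),
    Squarefree M → 2 ∣ M → ¬ p ∣ M → S.Finite → p ∈ S → (∀ r : ℕ, r.Prime → r ∣ M → r ∈ S) →
    FreyLike p ρ → HMod ρ M S →
    (∀ q : ℕ, q.Prime → q ∣ M → q ≠ 2 → p ∣ q - 1 ∧ ∀ A : ValuationSubring Qbar,
      A.LiesOverPrime q → ∀ τ : GQ, A.IsFrobeniusAt τ q → ρ τ = 1 ∨ ρ τ = -1) →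
    ∃ (D : Type) (_ : CommRing D) (_ : IsDomain D) (_ : CharZero D) (_ : CNL D)
      (_ : (p : D) ∈ maximalIdeal D) (x : heckeAlgebra M 2 S →+* D)
      (T : GQ →* Matrix (Fin 2) (Fin 2) D), MatCont T ∧
      Submodule.span D (Set.range T) = ⊤ ∧
      (∀ (ℓ : ℕ) (hℓ : ℓ.Prime) (hℓM : ¬ ℓ ∣ M) (hℓS : ℓ ∉ S),
        ∀ A : ValuationSubring Qbar, A.LiesOverPrime ℓ → ∀ τ : GQ, A.IsFrobeniusAt τ ℓ →
          (T τ).trace = x (heckeAlgebra.T hℓ hℓM hℓS) ∧ (T τ).det = (ℓ : D)) ∧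
      ∀ q : ℕ, q.Prime → q ∣ M → q ≠ 2 → ∀ A : ValuationSubring Qbar, A.LiesOverPrime q →
        ∀ σ ∈ A.inertiaSubgroupIn ℚ, T σ = 1

/-- **Ramification of newforms** (hypothesis): the `p`-adic representations attached to a newform
are ramified at the primes `q ≠ p` exactly dividing the level. -/
def NewformRamified (p : ℕ) [Fact p.Prime] : Prop :=
  ∀ (M : ℕ) [NeZero M] (S : Set ℕ) (g : CuspForm (Gamma0 M) 2), g.IsNewform →
    S.Finite → p ∈ S → (∀ r : ℕ, r.Prime → r ∣ M → r ∈ S) →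
    ∀ (D : Type) [CommRing D] [IsDomain D] [CharZero D] [CNL D], (p : D) ∈ maximalIdeal D →
    ∀ (chig : heckeAlgebra M 2 S →+* ℂ),
    (∀ (ℓ : ℕ) (hℓ : ℓ.Prime) (hℓM : ¬ ℓ ∣ M) (hℓS : ℓ ∉ S),
      chig (heckeAlgebra.T hℓ hℓM hℓS) = qCoeff g ℓ) →
    ∀ (iota : chig.range →+* D) (T : GQ →* Matrix (Fin 2) (Fin 2) D), MatCont T →
    Submodule.span D (Set.range T) = ⊤ →
    (∀ (ℓ : ℕ) (hℓ : ℓ.Prime) (hℓM : ¬ ℓ ∣ M) (hℓS : ℓ ∉ S),
      ∀ A : ValuationSubring Qbar, A.LiesOverPrime ℓ → ∀ τ : GQ, A.IsFrobeniusAt τ ℓ →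
        (T τ).trace = (iota.comp chig.rangeRestrict) (heckeAlgebra.T hℓ hℓM hℓS) ∧
          (T τ).det = (ℓ : D)) →
    ∀ q : ℕ, q.Prime → q ≠ p → q ∣ M → ¬ q ^ 2 ∣ M →
      ∃ A : ValuationSubring Qbar, A.LiesOverPrime q ∧ ∃ σ ∈ A.inertiaSubgroupIn ℚ, T σ ≠ 1

section Unr

variable {p : ℕ} [hp : Fact p.Prime] {ρ : GQ →* Matrix (Fin 2) (Fin 2) (ZMod p)}

/-- a representation modular of level `M` is unramified outside `M p` -/
theorem HMod.unramified (hρ : FinLevel ρ) (hdet : ∀ g, (ρ g).det = chiK p (ZMod p) g)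
    (hspan : Submodule.span (ZMod p) (Set.range ρ) = ⊤) {M : ℕ} [NeZero M] {S : Set ℕ}
    (hS : S.Finite) (hpS : p ∈ S) (h : HMod ρ M S) {q : ℕ} (hq : q.Prime) (hqM : ¬ q ∣ M)
    (hqp : q ≠ p) {A : ValuationSubring Qbar} (hA : A.LiesOverPrime q) {σ : GQ}
    (hσ : σ ∈ A.inertiaSubgroupIn ℚ) : ρ σ = 1 := by
  obtain ⟨θ, hθ⟩ := h
  obtain ⟨T, hT, hfr, hin⟩ := exists_rep_of_heckeHom (p := p) hS θ
  have hMfin : {q : ℕ | q ∣ M}.Finite := (Set.finite_le_nat M).subset fun q hq =>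
    Nat.le_of_dvd (NeZero.pos M) hq
  have htr : ∀ g, (T g).trace = (ρ g).trace := by
    intro g
    refine trace_eq_of_frob hT hρ (S ∪ {q | q ∣ M}) (hS.union hMfin) ?_ g
    intro ℓ hℓ hℓS A hA τ hτ
    have hℓS1 : ℓ ∉ S := fun h => hℓS (Or.inl h)
    have hℓM : ¬ ℓ ∣ M := fun h => hℓS (Or.inr h)
    have hℓp : ℓ ≠ p := fun h => hℓS1 (h ▸ hpS)
    obtain ⟨h1, h2⟩ := hfr ℓ hℓ hℓM hℓp hℓS1 A hA τ hτ
    refine ⟨?_, ?_⟩
    · rw [h1, hθ ℓ hℓ hℓM hℓS1 A hA τ hτ]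
    · rw [h2, hdet, chiK_frob p _ hℓ hA hℓp hτ]
  have hTσ := hin q hq hqM hqp A hA σ hσ
  rw [← sub_eq_zero]
  refine eq_zero_of_trace_mul_eq_zero (M := ρ) hspan _ fun g => ?_
  rw [sub_mul, one_mul, Matrix.trace_sub, ← map_mul, ← htr, ← htr, map_mul, hTσ, one_mul, sub_self]

/-- no modular representations of level dividing two -/
theorem not_hmod_two {M : ℕ} [NeZero M] (hM : M ∣ 2) {S : Set ℕ}
    (hMS : ∀ r : ℕ, r.Prime → r ∣ M → r ∈ S) (h : HMod ρ M S) : False := by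
  obtain ⟨f, 𝔪, hf, -⟩ := exists_congTo_of_hmod hMS h
  have hf0 := hf.ne_zero
  rcases (Nat.dvd_prime Nat.prime_two).mp hM with rfl | rfl
  · exact hf0 (S08.result f)
  · exact hf0 (S07.result f)

end Unr

section Main

variable {p : ℕ} [hp : Fact p.Prime] {ρ : GQ →* Matrix (Fin 2) (Fin 2) (ZMod p)}

/-- **Level lowering for Frey-like representations**: they are not modular of squarefree level
prime to `p`. -/
theorem not_hmod_of_freyLike (hp2 : p ≠ 2) (hMaz : MazurPrinciple p) (hTW : TWCore p)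
    (hRam : NewformRamified p) (hρ : FreyLike p ρ) {N : ℕ} [NeZero N] (hN : Squarefree N)
    (hpN : ¬ p ∣ N) {S : Set ℕ} (hS : S.Finite) (hpS : p ∈ S)
    (hNS : ∀ r : ℕ, r.Prime → r ∣ N → r ∈ S) (h : HMod ρ N S) : False := by
  classical
  have hspan := hρ.span hp2
  -- the minimal level
  let Q : ℕ → Prop := fun M => ∃ hM : NeZero M, M ∣ N ∧ HMod ρ M S
  have hQ : ∃ M, Q M := ⟨N, inferInstance, dvd_rfl, h⟩
  obtain ⟨hM0, hMN, hM⟩ := Nat.find_spec hQ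
  set M := Nat.find hQ with hMdef
  have hmin : ∀ M', Q M' → M ≤ M' := fun M' h' => Nat.find_min' hQ h'
  have hMsq : Squarefree M := hN.squarefree_of_dvd hMN
  have hpM : ¬ p ∣ M := fun h => hpN (h.trans hMN)
  have hMS : ∀ r : ℕ, r.Prime → r ∣ M → r ∈ S := fun r hr hrM => hNS r hr (hrM.trans hMN)
  -- `2` divides the minimal level
  have h2M : 2 ∣ M := by
    by_contra h2
    obtain ⟨A, hA, -⟩ := Frob.exists_place_frobenius Nat.prime_two
    obtain ⟨σ, hσ, hne⟩ := hρ.ram A hA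
    exact hne (hM.unramified hρ.level hρ.det hspan hS hpS Nat.prime_two h2
      (fun h => hp2 h.symm) hA hσ)
  -- the odd primes of the minimal level
  have hodd : ∀ q : ℕ, q.Prime → q ∣ M → q ≠ 2 → p ∣ q - 1 ∧ ∀ A : ValuationSubring Qbar,
      A.LiesOverPrime q → ∀ τ : GQ, A.IsFrobeniusAt τ q → ρ τ = 1 ∨ ρ τ = -1 := by
    intro q hq hqM hq2
    have hqp : q ≠ p := fun h => hpM (h ▸ hqM)
    obtain ⟨M', hM'⟩ := hqM
    have hM'0 : NeZero M' := ⟨fun h => NeZero.ne M (by rw [hM', h, mul_zero])⟩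
    have hM'1 : M' * q = M := by rw [hM', mul_comm]
    have hqM' : ¬ q ∣ M' := by
      intro h
      have h1 : q * q ∣ M := by rw [hM']; exact mul_dvd_mul_left q h
      exact hq.one_lt.ne' (Nat.isUnit_iff.mp (hMsq q h1))
    haveI : NeZero (M' * q) := ⟨by rw [hM'1]; exact NeZero.ne M⟩
    have hMq : HMod ρ (M' * q) S := by
      have key : ∀ (m : ℕ) (h1 : NeZero m) (h2 : m = M), @HMod (ZMod p) _ ρ m h1 S := by
        intro m h1 h2
        subst h2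
        exact hM
      exact key _ _ hM'1
    rcases hMaz M' q S ρ hq hqM' hqp hq2 hS hpS (by
        rw [hM'1]; exact hMS) hρ.level hρ.det hspan
        (fun A hA σ hσ => hρ.unram q hq hq2 hqp A hA σ hσ) hMq with h1 | h1
    · exfalso
      have h2 : M ≤ M' := hmin M' ⟨hM'0, (Dvd.intro_left q hM'.symm).trans hMN, h1⟩
      have h3 : M' * 1 < M' * q := Nat.mul_lt_mul_of_pos_left hq.one_lt (NeZero.pos M')
      rw [mul_one, hM'1] at h3
      omega
    · exact h1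
  by_cases hM2 : M ∣ 2
  · exact not_hmod_two hM2 hMS hM
  -- Taylor-Wiles
  obtain ⟨D, i1, i2, i3, i4, hpD, x, T, hT, hTspan, hfr, hunr⟩ :=
    hTW M S ρ hMsq h2M hpM hS hpS hMS hρ hM hodd
  obtain ⟨M₁, hM₁0, hM₁, g, hg, chig, iota, hchig, hiota⟩ := exists_newform_of_point hMS x
  have hM₁S : ∀ r : ℕ, r.Prime → r ∣ M₁ → r ∈ S := fun r hr hrM => hMS r hr (hrM.trans hM₁)
  have hM₁sq : Squarefree M₁ := hMsq.squarefree_of_dvd hM₁
  -- no odd primes divide `M₁`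
  have hno : ∀ q : ℕ, q.Prime → q ∣ M₁ → q = 2 := by
    intro q hq hqM₁
    by_contra hq2
    have hqp : q ≠ p := fun h => hpM (h ▸ hqM₁.trans hM₁)
    have hq2' : ¬ q ^ 2 ∣ M₁ := by
      intro h
      rw [pow_two] at h
      exact hq.one_lt.ne' (Nat.isUnit_iff.mp (hM₁sq q h))
    obtain ⟨A, hA, σ, hσ, hne⟩ := hRam M₁ S g hg hS hpS hM₁S D hpD chig hchig iota T hT hTspan (by
      intro ℓ hℓ hℓM₁ hℓS A hA τ hτ
      have hℓM : ¬ ℓ ∣ M := fun h => hℓS (hMS ℓ hℓ h)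
      obtain ⟨h1, h2⟩ := hfr ℓ hℓ hℓM hℓS A hA τ hτ
      exact ⟨by rw [h1, ← hiota ℓ hℓ hℓM hℓS], h2⟩) q hq hqp hqM₁ hq2'
    exact hne (hunr q hq (hqM₁.trans hM₁) hq2 A hA σ hσ)
  have hM₁2 : M₁ ∣ 2 := by
    rcases Nat.eq_zero_or_pos M₁ with h | h
    · exact absurd h (NeZero.ne M₁)
    have h1 : M₁ ∣ 2 ^ 1 := by
      rw [← Nat.factorization_le_iff_dvd (NeZero.ne M₁) (by norm_num)]
      intro q
      by_cases hq : q.Prime
      · by_cases hqM : q ∣ M₁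
        · have hq2 := hno q hq hqM
          subst hq2
          have h2 : (M₁.factorization 2) ≤ 1 := by
            exact (Nat.squarefree_iff_factorization_le_one (NeZero.ne M₁)).mp hM₁sq 2
          rw [Nat.prime_two.factorization_pow]
          simpa using h2
        · rw [Nat.factorization_eq_zero_of_not_dvd hqM]
          exact Nat.zero_le _
      · rw [Nat.factorization_eq_zero_of_not_prime _ hq]
        exact Nat.zero_le _
    simpa using h1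
  have hg0 := hg.ne_zero
  have key : ∀ (m : ℕ) (g : CuspForm (Gamma0 m) 2), m ∣ 2 → g ≠ 0 → False := by
    intro m g hm hg0
    rcases (Nat.dvd_prime Nat.prime_two).mp hm with rfl | rfl
    · exact hg0 (S08.result g)
    · exact hg0 (S07.result g)
  exact key M₁ g hM₁2 hg0

end Main

section Frey

open WeierstrassCurve.Affine.Point

/-- **G3, prime to `p` case** -/
theorem false_of_modularRep (P : FreyPackage) [Fact P.p.Prime] (hMaz : MazurPrinciple P.p)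
    (hTW : TWCore P.p) (hRam : NewformRamified P.p)
    (hirr : GaloisRepIsIrreducible (K := Qbar) ℚ P.freyCurve P.p) {N : ℕ} (hN0 : 0 < N)
    (hN : Squarefree N) (hpN : ¬ P.p ∣ N) (hmod : P.ModularRepOfLevel N) : False := by
  haveI : NeZero N := ⟨hN0.ne'⟩
  have hp2 : P.p ≠ 2 := by have := P.hp5; omega
  obtain ⟨ρ, hρ, -, htr⟩ := exists_freyRep P hirr
  let S : Set ℕ := {P.p} ∪ {ℓ | ℓ ∣ N}
  have hS : S.Finite := (Set.finite_singleton _).union ((Set.finite_le_nat N).subset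
    fun ℓ hℓ => Nat.le_of_dvd (NeZero.pos N) hℓ)
  have hNS : ∀ q : ℕ, q.Prime → q ∣ N → q ∈ S := fun q _ hq => Or.inr hq
  have h := hmod_of_modularRepOfLevel P hρ (fun ℓ hℓ hg hℓp A hA τ hτ =>
    (htr ℓ hℓ hg hℓp A hA τ hτ).1) hmod (S := S) (Or.inl rfl) hNS
  exact not_hmod_of_freyLike hp2 hMaz hTW hRam hρ hN hpN hS (Or.inl rfl) hNS h

/-- **S43 from the four inputs** -/
theorem s43_of (hS44 : ∀ (P : FreyPackage) {N : ℕ}, P.IsConductorLevel N → P.p ∣ N →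
      GaloisRepIsIrreducible (K := Qbar) ℚ P.freyCurve P.p → P.ModularRepOfLevel N →
      ∃ M : ℕ, M ∣ N ∧ ¬ P.p ∣ M ∧ P.ModularRepOfLevel M)
    (hMaz : ∀ (p : ℕ) [Fact p.Prime], 5 ≤ p → MazurPrinciple p)
    (hTW : ∀ (p : ℕ) [Fact p.Prime], 5 ≤ p → TWCore p)
    (hRam : ∀ (p : ℕ) [Fact p.Prime], 5 ≤ p → NewformRamified p)
    (P : FreyPackage) {N : ℕ} (hcond : P.IsConductorLevel N)
    (hirr : GaloisRepIsIrreducible (K := Qbar) ℚ P.freyCurve P.p)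
    (hmod : P.ModularRepOfLevel N) : False := by
  haveI : Fact P.p.Prime := ⟨P.pp⟩
  by_cases hpN : P.p ∣ N
  · obtain ⟨M, hMN, hpM, hmodM⟩ := hS44 P hcond hpN hirr hmod
    have hM0 : 0 < M := Nat.pos_of_dvd_of_pos hMN hcond.pos
    exact false_of_modularRep P (hMaz P.p P.hp5) (hTW P.p P.hp5) (hRam P.p P.hp5) hirr hM0
      (hcond.squarefree.squarefree_of_dvd hMN) hpM hmodM
  · exact false_of_modularRep P (hMaz P.p P.hp5) (hTW P.p P.hp5) (hRam P.p P.hp5) hirr hcond.pos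
      hcond.squarefree hpN hmod

end Frey

end Fermat.Agent.S43Glue
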