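import Fermat.Agent.GalRep.DVRExt
import Fermat.Agent.TWLoc.Package

set_option autoImplicit false
set_option maxHeartbeats 400000
set_option linter.style.haveILetI false

/-! Coefficient rings with many roots of unity. -/

namespace Fermat.Agent.S43Glue

open IsLocalRing Fermat.Agent.TWPatch Polynomial

/-- **(G1)** coefficient rings -/
theorem exists_ring (p : ℕ) [Fact p.Prime] (m : ℕ) (hm : m ≠ 0) :
    ∃ (O : Type) (_ : CommRing O) (_ : IsDomain O) (_ : IsDiscreteValuationRing O)
      (_ : CNL O) (_ : CharZero O) (_ : Algebra ℤ_[p] O) (_ : Module.Finite ℤ_[p] O),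
      Function.Injective (algebraMap ℤ_[p] O) ∧ (p : O) ∈ maximalIdeal O ∧
        ∃ ζ : O, IsPrimitiveRoot ζ m := by
  haveI : NeZero m := ⟨hm⟩
  haveI : NeZero (m : ℚ_[p]) := ⟨Nat.cast_ne_zero.mpr hm⟩
  let K := CyclotomicField m ℚ_[p]
  haveI : IsScalarTower ℤ_[p] ℚ_[p] K := inferInstance
  haveI : FiniteDimensional ℚ_[p] K := IsCyclotomicExtension.finiteDimensional {m} ℚ_[p] K
  let B := integralClosure ℤ_[p] K
  haveI : Module.Finite ℤ_[p] B := IsIntegralClosure.finite ℤ_[p] ℚ_[p] K B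
  haveI : IsDedekindDomain B := integralClosure.isDedekindDomain ℤ_[p] ℚ_[p] K
  have hinjK : Function.Injective (algebraMap ℤ_[p] K) := by
    rw [IsScalarTower.algebraMap_eq ℤ_[p] ℚ_[p] K]
    exact (algebraMap ℚ_[p] K).injective.comp (IsFractionRing.injective ℤ_[p] ℚ_[p])
  have hinj : Function.Injective (algebraMap ℤ_[p] B) := by
    intro x y hxy
    apply hinjK
    exact congrArg (algebraMap B K) hxy
  haveI : Finite (ResidueField ℤ_[p]) := CNL.finRes
  obtain ⟨h1, h2, h3, h4, h5⟩ := GalRep.dvr_ext (O := ℤ_[p]) (B := B) hinj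
  haveI := h1
  haveI : CNL B := ⟨h2, inferInstance, h3, h4⟩
  haveI : CharZero B := charZero_of_injective_algebraMap hinj
  refine ⟨B, inferInstance, inferInstance, h1, inferInstance, inferInstance, inferInstance,
    inferInstance, hinj, ?_, ?_⟩
  · rw [mem_maximalIdeal, mem_nonunits_iff, ← map_natCast (algebraMap ℤ_[p] B)]
    intro hu
    have h6 := isUnit_of_map_unit (algebraMap ℤ_[p] B) _ hu
    have h7 : (p : ℤ_[p]) ∈ maximalIdeal ℤ_[p] := by
      rw [PadicInt.maximalIdeal_eq_span_p]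
      exact Ideal.mem_span_singleton_self _
    exact h7 h6
  · have hζ := IsCyclotomicExtension.zeta_spec m ℚ_[p] K
    have hint : IsIntegral ℤ_[p] (IsCyclotomicExtension.zeta m ℚ_[p] K) :=
      IsIntegral.of_pow (Nat.pos_of_ne_zero hm) (by rw [hζ.pow_eq_one]; exact isIntegral_one)
    refine ⟨⟨_, hint⟩, ?_⟩
    exact IsPrimitiveRoot.of_map_of_injective (f := algebraMap B K) hζ
      (FaithfulSMul.algebraMap_injective B K)

/-- roots of unity of order prime to `p` stay primitive in the residue field -/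
theorem residue_primitive {O : Type*} [CommRing O] [IsDomain O] [IsLocalRing O] {n : ℕ}
    (hn : n ≠ 0) (hunit : IsUnit (n : O)) {ζ : O} (hζ : IsPrimitiveRoot ζ n) :
    IsPrimitiveRoot (residue O ζ) n := by
  refine IsPrimitiveRoot.mk_of_lt _ (Nat.pos_of_ne_zero hn) ?_ ?_
  · rw [← map_pow, hζ.pow_eq_one, map_one]
  · intro l hl0 hln h
    rw [← map_pow] at h
    have h1 : 1 - ζ ^ l ∈ maximalIdeal O := by
      rw [← residue_eq_zero_iff, map_sub, map_one, h, sub_self]
    -- `1 - ζ ^ l` divides `n`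
    have h2 : (1 - ζ ^ l) ∣ (n : O) := by
      obtain ⟨k, rfl⟩ : ∃ k, n = k + 1 := ⟨n - 1, by omega⟩
      have h3 := hζ.prod_one_sub_pow_eq_order
      rw [Nat.cast_add, Nat.cast_one, ← h3]
      obtain ⟨j, rfl⟩ : ∃ j, l = j + 1 := ⟨l - 1, by omega⟩
      exact Finset.dvd_prod_of_mem (fun i => 1 - ζ ^ (i + 1)) (Finset.mem_range.mpr (by omega))
    exact h1 (isUnit_of_dvd_unit h2 hunit)

/-- quadratic polynomials over the prime field split in a field with all `(p²-1)`-th roots of
unity -/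
theorem quad_splits {p : ℕ} [Fact p.Prime] {k : Type*} [Field k] [Algebra (ZMod p) k] {ζ : k}
    (hζ : IsPrimitiveRoot ζ (p ^ 2 - 1)) (b c : ZMod p) :
    ∃ α β : k, (X ^ 2 - C (algebraMap (ZMod p) k b) * X + C (algebraMap (ZMod p) k c) : k[X]) =
      (X - C α) * (X - C β) := by
  have hp : p.Prime := Fact.out
  have hp1 : 1 < p := hp.one_lt
  have hpp : 1 < p ^ 2 := Nat.one_lt_pow two_ne_zero hp1
  haveI hn0 : NeZero (p ^ 2 - 1) := ⟨by omega⟩
  let L := AlgebraicClosure k
  haveI : CharP k p := charP_of_injective_algebraMap (algebraMap (ZMod p) k).injective p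
  haveI : CharP L p := charP_of_injective_algebraMap (algebraMap k L).injective p
  haveI : ExpChar L p := ExpChar.prime hp
  set B : L := algebraMap k L (algebraMap (ZMod p) k b) with hB
  set D : L := algebraMap k L (algebraMap (ZMod p) k c) with hD
  have hBp : B ^ p = B := by
    rw [hB, ← map_pow, ← map_pow, ZMod.pow_card]
  have hDp : D ^ p = D := by
    rw [hD, ← map_pow, ← map_pow, ZMod.pow_card]
  obtain ⟨α, hα⟩ := IsAlgClosed.exists_root (X ^ 2 - C B * X + C D : L[X]) (by
    have : (X ^ 2 - C B * X + C D : L[X]).degree = 2 := by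
      compute_degree!
    rw [this]; exact two_ne_zero)
  have hα' : α ^ 2 - B * α + D = 0 := by simpa using hα
  -- Frobenius permutes the roots
  have hαp : (α ^ p) ^ 2 - B * α ^ p + D = 0 := by
    have h1 : frobenius L p (α ^ 2 - B * α + D) = 0 := by rw [hα', map_zero]
    rw [map_add, map_sub, map_mul, map_pow, frobenius_def, frobenius_def, frobenius_def, hBp,
      hDp] at h1
    exact h1
  have hαpp : α ^ (p ^ 2) = α := by
    have h1 : (α ^ p - α) * (α ^ p - (B - α)) = 0 := by linear_combination hαp - hα'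
    rcases mul_eq_zero.mp h1 with h | h
    · rw [sub_eq_zero] at h
      rw [pow_two, pow_mul, h, h]
    · rw [sub_eq_zero] at h
      have h2 : (B - α) ^ p = B ^ p - α ^ p := sub_pow_expChar B α
      rw [pow_two, pow_mul, h, h2, hBp, h]
      ring
  obtain ⟨a, ha⟩ : ∃ a : k, algebraMap k L a = α := by
    by_cases hα0 : α = 0
    · exact ⟨0, by rw [hα0, map_zero]⟩
    · have h1 : α ^ (p ^ 2 - 1) = 1 := by
        have h2 : α ^ (p ^ 2 - 1) * α = 1 * α := by
          rw [← pow_succ, one_mul, Nat.sub_add_cancel hpp.le, hαpp]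
        exact mul_right_cancel₀ hα0 h2
      obtain ⟨i, -, hi⟩ := (hζ.map_of_injective (algebraMap k L).injective).eq_pow_of_pow_eq_one h1
      exact ⟨ζ ^ i, by rw [map_pow, hi]⟩
  refine ⟨a, algebraMap (ZMod p) k b - a, ?_⟩
  have h3 : algebraMap (ZMod p) k c = a * (algebraMap (ZMod p) k b - a) := by
    apply (algebraMap k L).injective
    rw [map_mul, map_sub, ha]
    linear_combination hα'
  rw [h3]
  simp only [map_mul, map_sub]
  ring

theorem charP_residue {O : Type*} [CommRing O] [IsLocalRing O] (p : ℕ) [hp : Fact p.Prime]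
    (h : (p : O) ∈ maximalIdeal O) : CharP (ResidueField O) p := by
  have h1 : ((p : ℕ) : ResidueField O) = 0 := by
    rw [← map_natCast (residue O), residue_eq_zero_iff]
    exact h
  exact (CharP.charP_iff_prime_eq_zero hp.out).mpr h1

/-- **(G1)** a coefficient ring with a primitive `p ^ A`-th root of unity whose residue field
splits all the quadratic polynomials over the prime field. -/
theorem exists_coeff (p : ℕ) [hp : Fact p.Prime] (A : ℕ) :
    ∃ (O : Type) (_ : CommRing O) (_ : IsDomain O) (_ : IsDiscreteValuationRing O)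
      (_ : CNL O) (_ : CharZero O) (_ : Algebra ℤ_[p] O) (_ : Module.Finite ℤ_[p] O),
      Function.Injective (algebraMap ℤ_[p] O) ∧ (p : O) ∈ maximalIdeal O ∧
        (∃ ζ : O, IsPrimitiveRoot ζ (p ^ A)) ∧
        ∀ (φ : ZMod p →+* ResidueField O) (b c : ZMod p), ∃ α β : ResidueField O,
          (X ^ 2 - C (φ b) * X + C (φ c) : (ResidueField O)[X]) = (X - C α) * (X - C β) := by
  have hp1 : 1 < p := hp.out.one_lt
  have hpp : 1 < p ^ 2 := Nat.one_lt_pow two_ne_zero hp1
  have hn0 : p ^ 2 - 1 ≠ 0 := by omega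
  obtain ⟨O, i1, i2, i3, i4, i5, i6, i7, hinj, hpm, ζ, hζ⟩ :=
    exists_ring p (p ^ A * (p ^ 2 - 1)) (mul_ne_zero (pow_ne_zero _ hp.out.ne_zero) hn0)
  have hpos : 0 < p ^ A * (p ^ 2 - 1) :=
    Nat.pos_of_ne_zero (mul_ne_zero (pow_ne_zero _ hp.out.ne_zero) hn0)
  refine ⟨O, i1, i2, i3, i4, i5, i6, i7, hinj, hpm, ⟨ζ ^ (p ^ 2 - 1), ?_⟩, ?_⟩
  · exact hζ.pow hpos (mul_comm _ _)
  · intro φ b c
    letI := φ.toAlgebra
    have hunit : IsUnit ((p ^ 2 - 1 : ℕ) : O) := by
      by_contra h
      have h1 : ((p ^ 2 - 1 : ℕ) : O) ∈ maximalIdeal O := h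
      have h2 : (1 : O) ∈ maximalIdeal O := by
        have h3 : ((p ^ 2 - 1 : ℕ) : O) = (p : O) * p - 1 := by
          rw [Nat.cast_sub hpp.le]
          push_cast
          ring
        have h4 : (1 : O) = p * p - ((p ^ 2 - 1 : ℕ) : O) := by
          rw [h3]; ring
        rw [h4]
        exact Ideal.sub_mem _ (Ideal.mul_mem_left _ _ hpm) h1
      exact h2 isUnit_one
    exact quad_splits (residue_primitive hn0 hunit (hζ.pow hpos rfl)) b c

end Fermat.Agent.S43Glue
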