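import Fermat.Agent.S43Glue.Chi
import Fermat.Agent.GalRep.WrapFrey
import Fermat.Agent.ECFrob.Qbar

set_option autoImplicit false
set_option maxHeartbeats 400000

/-! The matrix representation on the `p`-torsion of an elliptic curve over `ℚ`. -/

namespace Fermat.Agent.S43Glue

open Fermat.Agent.GalRep WeierstrassCurve WeierstrassCurve.Affine WeierstrassCurve.Affine.Point
open scoped WeierstrassCurve.Affine Matrix

local notation "Qbar" => AlgebraicClosure ℚ
local notation "GQ" => Qbar ≃ₐ[ℚ] Qbar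

section Basis

variable (E : WeierstrassCurve.Affine ℚ) (p : ℕ) [hp : Fact p.Prime]

/-- the `p`-torsion -/
abbrev Tor : Type := Submodule.torsionBy ℤ (E⁄Qbar).Point p

variable {E p} in
theorem exists_basis (hΔ : (E⁄Qbar).Δ ≠ 0) : Nonempty (Module.Basis (Fin 2) (ZMod p) (Tor E p)) := by
  have hcard := Fermat.Agent.DivPoly.card_torsionBy (W := E⁄Qbar) hΔ (n := p)
    (by exact_mod_cast hp.out.ne_zero)
  have : Finite (Tor E p) :=
    Nat.finite_of_card_ne_zero (by rw [hcard]; exact pow_ne_zero 2 hp.out.ne_zero)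
  have h := Module.natCard_eq_pow_finrank (K := ZMod p) (V := Tor E p)
  rw [hcard, Nat.card_zmod] at h
  have h2 : Module.finrank (ZMod p) (Tor E p) = 2 :=
    (Nat.pow_right_injective hp.out.two_le h).symm
  exact ⟨Module.finBasisOfFinrankEq (ZMod p) _ h2⟩

variable {E p} (b : Module.Basis (Fin 2) (ZMod p) (Tor E p))

/-- the matrix representation on the `p`-torsion -/
noncomputable def curveRep : GQ →* Matrix (Fin 2) (Fin 2) (ZMod p) where
  toFun σ := LinearMap.toMatrix b b (galoisRepModuleEnd (K := Qbar) ℚ E p σ)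
  map_one' := by rw [map_one, Module.End.one_eq_id, LinearMap.toMatrix_id]
  map_mul' σ τ := by rw [map_mul, Module.End.mul_eq_comp, LinearMap.toMatrix_comp b b b]

lemma curveRep_apply (σ : GQ) :
    curveRep b σ = LinearMap.toMatrix b b (galoisRepModuleEnd (K := Qbar) ℚ E p σ) := rfl

lemma curveRep_mulVec (σ : GQ) (x : Tor E p) :
    curveRep b σ *ᵥ (b.repr x) = b.repr (σ • x) := by
  rw [curveRep_apply, LinearMap.toMatrix_mulVec_repr]
  rfl

lemma curveRep_eq_one_iff (σ : GQ) : curveRep b σ = 1 ↔ ∀ x : Tor E p, σ • x = x := by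
  constructor
  · intro h x
    apply b.repr.injective
    apply DFunLike.coe_injective
    rw [← curveRep_mulVec, h, Matrix.one_mulVec]
  · intro h
    rw [curveRep_apply]
    have : galoisRepModuleEnd (K := Qbar) ℚ E p σ = 1 := by
      ext x : 1
      exact h x
    rw [this, Module.End.one_eq_id, LinearMap.toMatrix_id]

lemma curveRep_finLevel (hΔ : (E⁄Qbar).Δ ≠ 0) : FinLevel (curveRep b) := by
  obtain ⟨L, hL, h⟩ := torsion_finite_level E hΔ hp.out.ne_zero
  refine ⟨L, hL, fun σ hσ => ?_⟩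
  rw [curveRep_apply, h σ hσ, Module.End.one_eq_id, LinearMap.toMatrix_id]

/-- a relation between operators gives a relation between matrices -/
lemma curveRep_frob {W : WeierstrassCurve ℤ} (hE : E = W.map (Int.castRingHom ℚ)) {ℓ : ℕ}
    (hℓ : ℓ.Prime) (hW : W.IsGoodPrimeFor ℓ) (hℓp : ℓ ≠ p)
    {A : ValuationSubring Qbar} (hA : A.LiesOverPrime ℓ) {τ : GQ} (hτ : A.IsFrobeniusAt τ ℓ) :
    curveRep b τ * curveRep b τ - ((W.apOfModel ℓ : ℤ) : ZMod p) • curveRep b τ +
      (ℓ : ZMod p) • 1 = 0 := by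
  subst hE
  have hn : ¬ ℓ ∣ p := fun h => hℓp ((Nat.prime_dvd_prime_iff_eq hℓ hp.out).mp h)
  have h1 : galoisRepModuleEnd (K := Qbar) ℚ (W.map (Int.castRingHom ℚ)) p τ *
      galoisRepModuleEnd (K := Qbar) ℚ (W.map (Int.castRingHom ℚ)) p τ -
      ((W.apOfModel ℓ : ℤ) : ZMod p) •
        galoisRepModuleEnd (K := Qbar) ℚ (W.map (Int.castRingHom ℚ)) p τ +
      (ℓ : ZMod p) • 1 = 0 := by
    ext x : 1
    apply Subtype.ext
    have hx : p • (x : ((W.map (Int.castRingHom ℚ))⁄Qbar).Point) = 0 := by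
      have := (Submodule.mem_torsionBy_iff _ _).mp x.2
      rwa [Nat.cast_smul_eq_nsmul] at this
    have h2 := ECFrob.frob_rel_torsion W hℓ hW hA hτ (n := p) hn hx
    rw [LinearMap.add_apply, LinearMap.sub_apply, Module.End.mul_apply, LinearMap.smul_apply,
      LinearMap.smul_apply, Module.End.one_apply, galoisRepModuleEnd_apply,
      galoisRepModuleEnd_apply, Int.cast_smul_eq_zsmul, Nat.cast_smul_eq_nsmul]
    refine Eq.trans ?_ h2
    rw [natCast_zsmul]
    rfl
  have h2 := congrArg (LinearMap.toMatrix b b) h1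
  rw [map_add, map_sub, map_smul, map_smul, _root_.map_zero, Module.End.mul_eq_comp,
    LinearMap.toMatrix_comp b b b, Module.End.one_eq_id, LinearMap.toMatrix_id] at h2
  exact h2

/-- stable subspaces of `k ^ 2` for the matrix representation correspond to Galois stable
submodules -/
theorem irred_of_irreducible (hirr : GaloisRepIsIrreducible (K := Qbar) ℚ E p)
    (V : Submodule (ZMod p) (Fin 2 → ZMod p))
    (hV : ∀ σ : GQ, ∀ x ∈ V, curveRep b σ *ᵥ x ∈ V) : V = ⊥ ∨ V = ⊤ := by
  let e : Tor E p ≃ₗ[ZMod p] (Fin 2 → ZMod p) := b.equivFun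
  have he : ∀ σ : GQ, ∀ x, e (σ • x) = curveRep b σ *ᵥ (e x) := by
    intro σ x
    exact (curveRep_mulVec b σ x).symm
  rcases hirr.2 (V.comap e.toLinearMap) (fun σ x hx => by
    rw [Submodule.mem_comap] at hx ⊢
    change e (σ • x) ∈ V
    rw [he]
    exact hV σ _ hx) with h | h
  · left
    rw [eq_bot_iff]
    intro y hy
    have h1 : e.symm y ∈ V.comap e.toLinearMap := by
      rw [Submodule.mem_comap]
      change e (e.symm y) ∈ V
      rwa [e.apply_symm_apply]
    rw [h, Submodule.mem_bot] at h1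
    rw [Submodule.mem_bot, ← e.apply_symm_apply y, h1, _root_.map_zero]
  · right
    rw [eq_top_iff]
    intro y _
    have h1 : e.symm y ∈ V.comap e.toLinearMap := by rw [h]; trivial
    rw [Submodule.mem_comap] at h1
    change e (e.symm y) ∈ V at h1
    rwa [e.apply_symm_apply] at h1

end Basis

end Fermat.Agent.S43Glue
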