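import Fermat.Agent.DefRing.Burnside
import Fermat.Agent.GalRep.WrapRes

set_option autoImplicit false
set_option maxHeartbeats 400000

/-! Two-dimensional irreducible representations whose image contains a transvection: strong
irreducibility (on every subgroup containing all the squares). -/

namespace Fermat.Agent.S43Glue

open Matrix

section Lin

variable {F : Type*} [Field F]

/-- a nonzero nilpotent of square zero kills exactly a line -/
lemma nilp_data {N : Matrix (Fin 2) (Fin 2) F} (hN : N * N = 0) (hN0 : N ≠ 0) :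
    ∃ v w : Fin 2 → F, v ≠ 0 ∧ N *ᵥ w = v ∧ N *ᵥ v = 0 ∧
      ∀ x, N *ᵥ x = 0 → ∃ c : F, x = c • v := by
  obtain ⟨w, hw⟩ : ∃ w, N *ᵥ w ≠ 0 := by
    by_contra h
    push Not at h
    apply hN0
    ext i j
    have := congrFun (h (Pi.single j 1)) i
    simpa using this
  have hv : N *ᵥ (N *ᵥ w) = 0 := by rw [Matrix.mulVec_mulVec, hN, Matrix.zero_mulVec]
  refine ⟨N *ᵥ w, w, hw, rfl, hv, fun x hx => ?_⟩
  by_contra hcon
  push Not at hcon
  have hli : LinearIndependent F ![N *ᵥ w, x] := by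
    rw [LinearIndependent.pair_iff' hw]
    intro a ha
    exact hcon a ha.symm
  have hspan : Submodule.span F (Set.range ![N *ᵥ w, x]) = ⊤ :=
    hli.span_eq_top_of_card_eq_finrank (by simp)
  apply hN0
  ext i j
  have h1 : (Pi.single j 1 : Fin 2 → F) ∈ Submodule.span F (Set.range ![N *ᵥ w, x]) := by
    rw [hspan]; trivial
  have h2 : ∀ y ∈ Submodule.span F (Set.range ![N *ᵥ w, x]), N *ᵥ y = 0 := by
    intro y hy
    induction hy using Submodule.span_induction with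
    | mem y hy =>
      obtain ⟨i, rfl⟩ := hy
      fin_cases i
      · exact hv
      · exact hx
    | zero => exact Matrix.mulVec_zero N
    | add y z _ _ hy hz => rw [Matrix.mulVec_add, hy, hz, add_zero]
    | smul c y _ hy => rw [Matrix.mulVec_smul, hy, smul_zero]
  have h3 := congrFun (h2 _ h1) i
  simpa using h3

end Lin

section Trans

variable {G : Type*} [Group G] {F : Type*} [Field F] (T : G →* Matrix (Fin 2) (Fin 2) F)

/-- the two transvections with different lines -/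
theorem exists_two_lines
    (hirr : ∀ V : Submodule F (Fin 2 → F), (∀ σ, ∀ x ∈ V, T σ *ᵥ x ∈ V) → V = ⊥ ∨ V = ⊤)
    {σ₀ : G} (h0 : (T σ₀ - 1) * (T σ₀ - 1) = 0) (h1 : T σ₀ ≠ 1) :
    ∃ (τ : G) (v v' : Fin 2 → F) (c c' : F), c ≠ 0 ∧ c' ≠ 0 ∧
      LinearIndependent F ![v, v'] ∧ (T σ₀ - 1) *ᵥ v = 0 ∧ (T σ₀ - 1) *ᵥ v' = c • v ∧
      (T (τ * σ₀ * τ⁻¹) - 1) *ᵥ v' = 0 ∧ (T (τ * σ₀ * τ⁻¹) - 1) *ᵥ v = c' • v' := by
  have hN0 : T σ₀ - 1 ≠ 0 := sub_ne_zero.mpr h1
  obtain ⟨v, w, hv0, hw, hNv, hker⟩ := nilp_data h0 hN0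
  have hex : ∃ g, ∀ a : F, a • v ≠ T g *ᵥ v := by
    by_contra hcon
    push Not at hcon
    rcases hirr (Submodule.span F {v}) (fun g x hx => by
      obtain ⟨a, rfl⟩ := Submodule.mem_span_singleton.mp hx
      obtain ⟨b, hb⟩ := hcon g
      rw [Matrix.mulVec_smul, ← hb]
      exact Submodule.smul_mem _ _ (Submodule.smul_mem _ _ (Submodule.mem_span_singleton_self v))) with h | h
    · rw [Submodule.span_singleton_eq_bot] at h
      exact hv0 h
    · have h2 : Module.finrank F (Submodule.span F {v}) = 2 := by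
        rw [h, finrank_top]; simp
      have h3 := finrank_span_singleton (K := F) hv0
      omega
  obtain ⟨g, hg⟩ := hex
  have hinv : T g * T g⁻¹ = 1 := by rw [← map_mul, mul_inv_cancel, map_one]
  have hinv' : T g⁻¹ * T g = 1 := by rw [← map_mul, inv_mul_cancel, map_one]
  have hconj : T (g * σ₀ * g⁻¹) - 1 = T g * (T σ₀ - 1) * T g⁻¹ := by
    rw [map_mul, map_mul, mul_sub, sub_mul, mul_one, hinv]
  have hli : LinearIndependent F ![v, T g *ᵥ v] := by
    rw [LinearIndependent.pair_iff' hv0]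
    exact hg
  have hli' : LinearIndependent F ![T g *ᵥ v, v] := by
    have hgv : T g *ᵥ v ≠ 0 := by
      intro h
      exact hg 0 (by rw [h, zero_smul])
    rw [LinearIndependent.pair_iff' hgv]
    intro a ha
    have ha0 : a ≠ 0 := by
      rintro rfl
      rw [zero_smul] at ha
      exact hv0 ha.symm
    refine hg a⁻¹ ?_
    nth_rewrite 1 [← ha]
    rw [smul_smul, inv_mul_cancel₀ ha0, one_smul]
  -- `N v'` is a nonzero multiple of `v`
  have hNv' : ∃ c : F, c ≠ 0 ∧ (T σ₀ - 1) *ᵥ (T g *ᵥ v) = c • v := by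
    have h2 : (T σ₀ - 1) *ᵥ ((T σ₀ - 1) *ᵥ (T g *ᵥ v)) = 0 := by
      rw [Matrix.mulVec_mulVec, h0, Matrix.zero_mulVec]
    obtain ⟨c, hc⟩ := hker _ h2
    refine ⟨c, ?_, hc⟩
    rintro rfl
    rw [zero_smul] at hc
    obtain ⟨a, ha⟩ := hker _ hc
    exact hg a ha.symm
  obtain ⟨c, hc0, hc⟩ := hNv'
  -- the same for the conjugate
  have hN'v' : (T (g * σ₀ * g⁻¹) - 1) *ᵥ (T g *ᵥ v) = 0 := by
    rw [hconj, Matrix.mulVec_mulVec, mul_assoc, hinv', mul_one, ← Matrix.mulVec_mulVec, hNv,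
      Matrix.mulVec_zero]
  have hN'v : ∃ c' : F, c' ≠ 0 ∧ (T (g * σ₀ * g⁻¹) - 1) *ᵥ v = c' • (T g *ᵥ v) := by
    have h2 : (T σ₀ - 1) *ᵥ ((T σ₀ - 1) *ᵥ (T g⁻¹ *ᵥ v)) = 0 := by
      rw [Matrix.mulVec_mulVec, h0, Matrix.zero_mulVec]
    obtain ⟨c', hc'⟩ := hker _ h2
    refine ⟨c', ?_, ?_⟩
    · rintro rfl
      rw [zero_smul] at hc'
      obtain ⟨a, ha⟩ := hker _ hc'
      have h3 := congrArg (fun x => T g *ᵥ x) ha
      simp only [Matrix.mulVec_mulVec, hinv, Matrix.one_mulVec, Matrix.mulVec_smul] at h3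
      have ha0 : a ≠ 0 := by
        rintro rfl
        rw [zero_smul] at h3
        exact hv0 h3
      refine hg a⁻¹ ?_
      nth_rewrite 1 [h3]
      rw [smul_smul, inv_mul_cancel₀ ha0, one_smul]
    · rw [hconj, ← Matrix.mulVec_mulVec, ← Matrix.mulVec_mulVec, hc', Matrix.mulVec_smul]
  obtain ⟨c', hc'0, hc'⟩ := hN'v
  exact ⟨g, v, T g *ᵥ v, c, c', hc0, hc'0, hli, hNv, hc, hN'v', hc'⟩

/-- **Strong irreducibility**: over any extension field and for any subgroup containing the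
squares. -/
theorem strong_irred
    (hirr : ∀ V : Submodule F (Fin 2 → F), (∀ σ, ∀ x ∈ V, T σ *ᵥ x ∈ V) → V = ⊥ ∨ V = ⊤)
    {σ₀ : G} (h0 : (T σ₀ - 1) * (T σ₀ - 1) = 0) (h1 : T σ₀ ≠ 1) (h2 : (2 : F) ≠ 0)
    {K : Type*} [Field K] (φ : F →+* K) (H : Set G) (hH : ∀ g : G, g * g ∈ H)
    (V : Submodule K (Fin 2 → K)) (hV : ∀ σ ∈ H, ∀ x ∈ V, φ.mapMatrix (T σ) *ᵥ x ∈ V) :
    V = ⊥ ∨ V = ⊤ := by
  obtain ⟨τ, v, v', c, c', hc0, hc'0, hli, e1, e2, e3, e4⟩ := exists_two_lines T hirr h0 h1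
  set N := T σ₀ - 1 with hN
  set σ₁ := τ * σ₀ * τ⁻¹ with hσ₁
  set N' := T σ₁ - 1 with hN'
  have hinv : T τ * T τ⁻¹ = 1 := by rw [← map_mul, mul_inv_cancel, map_one]
  have hinv' : T τ⁻¹ * T τ = 1 := by rw [← map_mul, inv_mul_cancel, map_one]
  have hconj : N' = T τ * N * T τ⁻¹ := by
    rw [hN', hN, hσ₁, map_mul, map_mul, mul_sub, sub_mul, mul_one, hinv]
  have h0' : N' * N' = 0 := by
    rw [hconj]
    calc T τ * N * T τ⁻¹ * (T τ * N * T τ⁻¹) = T τ * N * (T τ⁻¹ * T τ) * N * T τ⁻¹ := by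
          simp only [mul_assoc]
      _ = 0 := by rw [hinv', mul_one, mul_assoc (T τ) N N, h0, mul_zero, zero_mul]
  -- the squares of the transvections
  have hsq : ∀ (σ : G), (T σ - 1) * (T σ - 1) = 0 → T (σ * σ) = 1 + (2 : F) • (T σ - 1) := by
    intro σ hσ
    have : T (σ * σ) = (T σ - 1) * (T σ - 1) + (1 + (2 : F) • (T σ - 1)) := by
      rw [map_mul]
      simp only [two_smul]
      noncomm_ring
    rw [this, hσ, zero_add]
  have h2K : φ 2 ≠ 0 := (map_ne_zero φ).mpr h2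
  have hstab : ∀ (σ : G), (T σ - 1) * (T σ - 1) = 0 → ∀ x ∈ V, φ.mapMatrix (T σ - 1) *ᵥ x ∈ V := by
    intro σ hσ x hx
    have h3 := hV (σ * σ) (hH σ) x hx
    rw [hsq σ hσ, map_add, map_one, Matrix.add_mulVec, Matrix.one_mulVec] at h3
    have h4 : φ.mapMatrix ((2 : F) • (T σ - 1)) = φ 2 • φ.mapMatrix (T σ - 1) := by
      ext i j
      simp
    rw [h4, Matrix.smul_mulVec] at h3
    have h5 := V.sub_mem h3 hx
    rw [add_sub_cancel_left] at h5
    have h6 := V.smul_mem (φ 2)⁻¹ h5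
    rwa [smul_smul, inv_mul_cancel₀ h2K, one_smul] at h6
  have hNst := hstab σ₀ h0
  have hN'st := hstab σ₁ h0'
  -- the vectors over `K`
  let vK : Fin 2 → K := fun i => φ (v i)
  let vK' : Fin 2 → K := fun i => φ (v' i)
  have hmap : ∀ (M : Matrix (Fin 2) (Fin 2) F) (x : Fin 2 → F),
      φ.mapMatrix M *ᵥ (fun i => φ (x i)) = fun i => φ ((M *ᵥ x) i) := by
    intro M x
    funext i
    simp only [RingHom.mapMatrix_apply, Matrix.mulVec, dotProduct, Matrix.map_apply, map_sum, map_mul]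
  have f1 : φ.mapMatrix N *ᵥ vK = 0 := by
    show φ.mapMatrix N *ᵥ (fun i => φ (v i)) = 0
    rw [hmap, e1]; funext i; simp
  have f2 : φ.mapMatrix N *ᵥ vK' = φ c • vK := by
    show φ.mapMatrix N *ᵥ (fun i => φ (v' i)) = _
    rw [hmap, e2]; funext i; simp [vK]
  have f3 : φ.mapMatrix N' *ᵥ vK' = 0 := by
    show φ.mapMatrix N' *ᵥ (fun i => φ (v' i)) = 0
    rw [hmap, e3]; funext i; simp
  have f4 : φ.mapMatrix N' *ᵥ vK = φ c' • vK' := by
    show φ.mapMatrix N' *ᵥ (fun i => φ (v i)) = _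
    rw [hmap, e4]; funext i; simp [vK']
  have hcK : φ c ≠ 0 := (map_ne_zero φ).mpr hc0
  have hcK' : φ c' ≠ 0 := (map_ne_zero φ).mpr hc'0
  -- they form a basis
  have hdet : v 0 * v' 1 - v 1 * v' 0 ≠ 0 := by
    intro hd
    have hli2 := Matrix.linearIndependent_rows_iff_isUnit (A := Matrix.of ![v, v'])
    have h3 : LinearIndependent F (Matrix.of ![v, v']).row := hli
    rw [hli2, Matrix.isUnit_iff_isUnit_det, Matrix.det_fin_two] at h3
    have h4 : Matrix.of ![v, v'] 0 0 * Matrix.of ![v, v'] 1 1 -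
        Matrix.of ![v, v'] 0 1 * Matrix.of ![v, v'] 1 0 = 0 := by
      simpa using hd
    rw [h4] at h3
    exact not_isUnit_zero h3
  have hspanK : ∀ x : Fin 2 → K, ∃ a b : K, x = a • vK + b • vK' := by
    intro x
    have hd : φ (v 0) * φ (v' 1) - φ (v 1) * φ (v' 0) ≠ 0 := by
      rw [← map_mul, ← map_mul, ← map_sub]
      exact (map_ne_zero φ).mpr hdet
    refine ⟨(x 0 * φ (v' 1) - x 1 * φ (v' 0)) / (φ (v 0) * φ (v' 1) - φ (v 1) * φ (v' 0)),
      (x 1 * φ (v 0) - x 0 * φ (v 1)) / (φ (v 0) * φ (v' 1) - φ (v 1) * φ (v' 0)), ?_⟩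
    funext i
    fin_cases i
    · simp only [Fin.zero_eta, Pi.add_apply, Pi.smul_apply, smul_eq_mul, vK, vK']
      rw [div_mul_eq_mul_div, div_mul_eq_mul_div, ← add_div, eq_div_iff hd]
      ring
    · simp only [Fin.mk_one, Pi.add_apply, Pi.smul_apply, smul_eq_mul, vK, vK']
      rw [div_mul_eq_mul_div, div_mul_eq_mul_div, ← add_div, eq_div_iff hd]
      ring
  by_cases hbot : V = ⊥
  · exact Or.inl hbot
  right
  obtain ⟨x, hx, hx0⟩ := Submodule.exists_mem_ne_zero_of_ne_bot hbot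
  have hboth : vK ∈ V ∧ vK' ∈ V := by
    obtain ⟨a, b, rfl⟩ := hspanK x
    have g1 := hNst _ hx
    rw [Matrix.mulVec_add, Matrix.mulVec_smul, Matrix.mulVec_smul] at g1
    rw [f1, f2, smul_zero, zero_add, smul_smul] at g1
    have g2 := hN'st _ hx
    rw [Matrix.mulVec_add, Matrix.mulVec_smul, Matrix.mulVec_smul] at g2
    rw [f3, f4, smul_zero, add_zero, smul_smul] at g2
    by_cases hb : b = 0
    · subst hb
      rw [zero_smul, add_zero] at hx hx0
      have ha : a ≠ 0 := by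
        rintro rfl
        rw [zero_smul] at hx0
        exact hx0 rfl
      refine ⟨?_, ?_⟩
      · have := V.smul_mem a⁻¹ hx
        rwa [smul_smul, inv_mul_cancel₀ ha, one_smul] at this
      · have := V.smul_mem (a * φ c')⁻¹ g2
        rwa [smul_smul, inv_mul_cancel₀ (mul_ne_zero ha hcK'), one_smul] at this
    · have hv : vK ∈ V := by
        have := V.smul_mem (b * φ c)⁻¹ g1
        rwa [smul_smul, inv_mul_cancel₀ (mul_ne_zero hb hcK), one_smul] at this
      refine ⟨hv, ?_⟩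
      have h7 := V.sub_mem hx (V.smul_mem a hv)
      rw [add_sub_cancel_left] at h7
      have := V.smul_mem b⁻¹ h7
      rwa [smul_smul, inv_mul_cancel₀ hb, one_smul] at this
  rw [eq_top_iff]
  intro y _
  obtain ⟨a, b, rfl⟩ := hspanK y
  exact V.add_mem (V.smul_mem a hboth.1) (V.smul_mem b hboth.2)

end Trans

section Span

variable {G : Type} [Group G] {F : Type} [Field F] (T : G →* Matrix (Fin 2) (Fin 2) F)

/-- the image spans the matrix algebra -/
theorem span_eq_top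
    (hirr : ∀ V : Submodule F (Fin 2 → F), (∀ σ, ∀ x ∈ V, T σ *ᵥ x ∈ V) → V = ⊥ ∨ V = ⊤)
    {σ₀ : G} (h0 : (T σ₀ - 1) * (T σ₀ - 1) = 0) (h1 : T σ₀ ≠ 1) (h2 : (2 : F) ≠ 0) :
    Submodule.span F (Set.range T) = ⊤ := by
  refine DefRing.span_range_eq_top (K := AlgebraicClosure F) T fun W hW => ?_
  refine strong_irred T hirr h0 h1 h2 (algebraMap F (AlgebraicClosure F)) Set.univ
    (fun g => trivial) W fun σ _ x hx => hW σ x hx

end Span

end Fermat.Agent.S43Glue
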