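import Fermat.Agent.S43Glue.Model
import Fermat.Agent.S43Glue.Curve
import Fermat.Agent.S43Glue.Trans

set_option autoImplicit false
set_option maxHeartbeats 400000

/-! The mod `p` representation of the Frey curve in matrix form. -/

namespace Fermat.Agent.S43Glue

open Fermat.Agent.GalRep WeierstrassCurve WeierstrassCurve.Affine WeierstrassCurve.Affine.Point
open scoped WeierstrassCurve.Affine Matrix

local notation "Qbar" => AlgebraicClosure ℚ
local notation "GQ" => Qbar ≃ₐ[ℚ] Qbar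

/-- The properties of the mod `p` representations of Frey curves used in level lowering. -/
structure FreyLike (p : ℕ) [Fact p.Prime] (ρ : GQ →* Matrix (Fin 2) (Fin 2) (ZMod p)) : Prop where
  /-- the image is finite -/
  level : FinLevel ρ
  /-- the determinant is the mod `p` cyclotomic character -/
  det : ∀ g, (ρ g).det = chiK p (ZMod p) g
  /-- irreducible -/
  irr : ∀ V : Submodule (ZMod p) (Fin 2 → ZMod p), (∀ σ, ∀ x ∈ V, ρ σ *ᵥ x ∈ V) → V = ⊥ ∨ V = ⊤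
  /-- unramified outside `2 p` -/
  unram : ∀ q : ℕ, q.Prime → q ≠ 2 → q ≠ p → ∀ A : ValuationSubring Qbar, A.LiesOverPrime q →
    ∀ σ ∈ A.inertiaSubgroupIn ℚ, ρ σ = 1
  /-- unipotent at `2` -/
  unip : ∀ A : ValuationSubring Qbar, A.LiesOverPrime 2 →
    ∀ σ ∈ A.inertiaSubgroupIn ℚ, (ρ σ - 1) * (ρ σ - 1) = 0
  /-- ramified at `2` -/
  ram : ∀ A : ValuationSubring Qbar, A.LiesOverPrime 2 →
    ∃ σ ∈ A.inertiaSubgroupIn ℚ, ρ σ ≠ 1

section Frey

variable (P : FreyPackage) [hp : Fact P.p.Prime]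

omit hp in
lemma freyInt_Δ_ne : P.freyCurveInt.Δ ≠ 0 := by
  intro h
  have h1 := ECRed.Frey.frey_Δ_ne (P := P) (K := Qbar)
  apply h1
  change (P.freyCurve.map (algebraMap ℚ Qbar)).Δ = 0
  rw [← freyInt_map P, map_Δ, h, _root_.map_zero]

omit hp in
lemma freyCurve_eq : P.freyCurve = P.freyCurveInt.map (Int.castRingHom ℚ) := by
  rw [freyInt_map P (K := ℚ)]
  rfl

/-- **(G2)** -/
theorem exists_freyRep (hirr : GaloisRepIsIrreducible (K := Qbar) ℚ P.freyCurve P.p) :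
    ∃ ρ : GQ →* Matrix (Fin 2) (Fin 2) (ZMod P.p), FreyLike P.p ρ ∧
      (∃ e : Tor P.freyCurve P.p ≃ₗ[ZMod P.p] (Fin 2 → ZMod P.p),
        ∀ (σ : GQ) (x : Tor P.freyCurve P.p), e (σ • x) = ρ σ *ᵥ e x) ∧
      ∀ ℓ : ℕ, ℓ.Prime → P.freyCurveInt.IsGoodPrimeFor ℓ → ℓ ≠ P.p →
        ∀ A : ValuationSubring Qbar, A.LiesOverPrime ℓ → ∀ τ : GQ, A.IsFrobeniusAt τ ℓ →
          (ρ τ).trace = ((P.freyCurveInt.apOfModel ℓ : ℤ) : ZMod P.p) ∧
            (ρ τ).det = (ℓ : ZMod P.p) := by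
  have hΔ : (((P.freyCurve : Affine ℚ)⁄Qbar) : Affine Qbar).Δ ≠ 0 :=
    ECRed.Frey.frey_Δ_ne (P := P) (K := Qbar)
  obtain ⟨b⟩ := exists_basis (E := P.freyCurve) (p := P.p) hΔ
  have hp5 := P.hp5
  have hp2 : (2 : ZMod P.p) ≠ 0 := by
    intro h
    have h1 : ((2 : ℕ) : ZMod P.p) = 0 := by exact_mod_cast h
    rw [ZMod.natCast_eq_zero_iff] at h1
    have := Nat.le_of_dvd (by norm_num) h1
    omega
  set ρ := curveRep b with hρ
  have hlev : FinLevel ρ := curveRep_finLevel b hΔ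
  have hirr' : ∀ V : Submodule (ZMod P.p) (Fin 2 → ZMod P.p),
      (∀ σ, ∀ x ∈ V, ρ σ *ᵥ x ∈ V) → V = ⊥ ∨ V = ⊤ := irred_of_irreducible b hirr
  have hunr : ∀ q : ℕ, q.Prime → q ≠ 2 → q ≠ P.p → ∀ A : ValuationSubring Qbar,
      A.LiesOverPrime q → ∀ σ ∈ A.inertiaSubgroupIn ℚ, ρ σ = 1 := by
    intro q hq hq2 hqp A hA σ hσ
    rw [hρ, curveRep_eq_one_iff]
    exact ECRed.Frey.frey_unram P (K := Qbar) hq hq2 hqp A hA σ hσ
  have htor : ∀ x : Tor P.freyCurve P.p, P.p • (x : ((P.freyCurve : Affine ℚ)⁄Qbar).Point) = 0 := by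
    intro x
    have := (Submodule.mem_torsionBy_iff _ _).mp x.2
    rwa [Nat.cast_smul_eq_nsmul] at this
  have hunip : ∀ A : ValuationSubring Qbar, A.LiesOverPrime 2 →
      ∀ σ ∈ A.inertiaSubgroupIn ℚ, (ρ σ - 1) * (ρ σ - 1) = 0 := by
    intro A hA σ hσ
    have h1 : ∀ x : Tor P.freyCurve P.p, σ • (σ • x - x) = σ • x - x := by
      intro x
      apply Subtype.ext
      exact ECRed.Frey.frey_unipotent_two (P := P) (K := Qbar) hA hσ (htor x)
    have h2 : (galoisRepModuleEnd (K := Qbar) ℚ (P.freyCurve : Affine ℚ) P.p σ - 1) *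
        (galoisRepModuleEnd (K := Qbar) ℚ (P.freyCurve : Affine ℚ) P.p σ - 1) = 0 := by
      ext x : 1
      rw [Module.End.mul_apply, LinearMap.sub_apply, LinearMap.sub_apply, Module.End.one_apply,
        Module.End.one_apply, galoisRepModuleEnd_apply, galoisRepModuleEnd_apply, h1, sub_self]
      rfl
    have h3 := congrArg (LinearMap.toMatrix b b) h2
    rw [Module.End.mul_eq_comp, LinearMap.toMatrix_comp b b b, map_sub, _root_.map_zero,
      Module.End.one_eq_id, LinearMap.toMatrix_id] at h3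
    exact h3
  have hram : ∀ A : ValuationSubring Qbar, A.LiesOverPrime 2 →
      ∃ σ ∈ A.inertiaSubgroupIn ℚ, ρ σ ≠ 1 := by
    intro A hA
    obtain ⟨σ, hσ, Q, hQ, hne⟩ := frey_ramified_two P hA
    refine ⟨σ, hσ, fun h => hne ?_⟩
    rw [hρ, curveRep_eq_one_iff] at h
    have hQ' : Q ∈ Submodule.torsionBy ℤ ((P.freyCurve : Affine ℚ)⁄Qbar).Point P.p := by
      rw [Submodule.mem_torsionBy_iff, Nat.cast_smul_eq_nsmul]
      exact hQ
    exact congrArg Subtype.val (h ⟨Q, hQ'⟩)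
  have hns : ∃ c, ∀ s : ZMod P.p, ρ c ≠ s • (1 : Matrix (Fin 2) (Fin 2) (ZMod P.p)) := by
    by_contra hcon
    push Not at hcon
    have hst : ∀ σ, ∀ x ∈ Submodule.span (ZMod P.p) {(Pi.single 0 1 : Fin 2 → ZMod P.p)},
        ρ σ *ᵥ x ∈ Submodule.span (ZMod P.p) {(Pi.single 0 1 : Fin 2 → ZMod P.p)} := by
      intro σ x hx
      obtain ⟨s, hs⟩ := hcon σ
      rw [hs, Matrix.smul_mulVec, Matrix.one_mulVec]
      exact Submodule.smul_mem _ _ hx
    rcases hirr' _ hst with h | h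
    · rw [Submodule.span_singleton_eq_bot] at h
      have := congrFun h 0
      simp at this
    · have h1 : (Pi.single 1 1 : Fin 2 → ZMod P.p) ∈
          Submodule.span (ZMod P.p) {(Pi.single 0 1 : Fin 2 → ZMod P.p)} := by
        rw [h]; trivial
      obtain ⟨a, ha⟩ := Submodule.mem_span_singleton.mp h1
      have := congrFun ha 1
      simp at this
  -- Frobenius
  let S : Set ℕ := {ℓ | ℓ ∣ P.p * P.freyCurveInt.Δ.natAbs}
  have hn : P.p * P.freyCurveInt.Δ.natAbs ≠ 0 :=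
    mul_ne_zero P.hp0 (Int.natAbs_ne_zero.mpr (freyInt_Δ_ne P))
  have hS : S.Finite := (Set.finite_le_nat _).subset fun ℓ hℓ =>
    Nat.le_of_dvd (Nat.pos_of_ne_zero hn) hℓ
  obtain ⟨hdet, hfr⟩ := trace_det_of_frob ρ hlev S hS (dvd_mul_right _ _)
    (fun ℓ => ((P.freyCurveInt.apOfModel ℓ : ℤ) : ZMod P.p)) (fun ℓ hℓ hℓS A hA τ hτ => by
      have hℓS' : ¬ ℓ ∣ P.p * P.freyCurveInt.Δ.natAbs := hℓS
      refine curveRep_frob b (W := P.freyCurveInt) (freyCurve_eq P) hℓ (fun h => hℓS' ?_)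
        (fun h => hℓS' ?_) hA hτ
      · exact Dvd.dvd.mul_left (Int.natCast_dvd.mp h) _
      · rw [h]; exact dvd_mul_right _ _) hns
  refine ⟨ρ, ⟨hlev, hdet, hirr', hunr, hunip, hram⟩, ⟨b.equivFun, fun σ x => ?_⟩, ?_⟩
  · exact (curveRep_mulVec b σ x).symm
  · intro ℓ hℓ hgood hℓp
    refine hfr ℓ hℓ ?_
    intro h
    have h' : ℓ ∣ P.p * P.freyCurveInt.Δ.natAbs := h
    rcases hℓ.dvd_mul.mp h' with h | h
    · exact hℓp ((Nat.prime_dvd_prime_iff_eq hℓ P.pp).mp h)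
    · exact hgood (Int.natCast_dvd.mpr h)

/-- the finite set of bad primes -/
def badF : Set ℕ := {ℓ | ℓ ∣ P.p * P.freyCurveInt.Δ.natAbs}

omit hp in
lemma badF_finite : (badF P).Finite := by
  have hn : P.p * P.freyCurveInt.Δ.natAbs ≠ 0 :=
    mul_ne_zero P.hp0 (Int.natAbs_ne_zero.mpr (freyInt_Δ_ne P))
  exact (Set.finite_le_nat _).subset fun ℓ hℓ => Nat.le_of_dvd (Nat.pos_of_ne_zero hn) hℓ

omit hp in
lemma good_of_notMem_badF {ℓ : ℕ} (h : ℓ ∉ badF P) :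
    P.freyCurveInt.IsGoodPrimeFor ℓ ∧ ℓ ≠ P.p := by
  have h' : ¬ ℓ ∣ P.p * P.freyCurveInt.Δ.natAbs := h
  exact ⟨fun hd => h' (Dvd.dvd.mul_left (Int.natCast_dvd.mp hd) _),
    fun he => h' (he ▸ dvd_mul_right _ _)⟩

end Frey

section Cons

variable {p : ℕ} [hp : Fact p.Prime] {ρ : GQ →* Matrix (Fin 2) (Fin 2) (ZMod p)}

lemma two_ne_zero_zmod (hp2 : p ≠ 2) : (2 : ZMod p) ≠ 0 := by
  intro h
  have h1 : ((2 : ℕ) : ZMod p) = 0 := by exact_mod_cast h
  rw [ZMod.natCast_eq_zero_iff] at h1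
  have h2 := Nat.le_of_dvd (by norm_num) h1
  have h3 := hp.out.two_le
  omega

/-- a transvection -/
lemma FreyLike.exists_transvection (h : FreyLike p ρ) :
    ∃ σ : GQ, (ρ σ - 1) * (ρ σ - 1) = 0 ∧ ρ σ ≠ 1 := by
  obtain ⟨A, hA, -⟩ := Frob.exists_place_frobenius Nat.prime_two
  obtain ⟨σ, hσ, hne⟩ := h.ram A hA
  exact ⟨σ, h.unip A hA σ hσ, hne⟩

/-- strong irreducibility of Frey-like representations -/
theorem FreyLike.strong (h : FreyLike p ρ) (hp2 : p ≠ 2) {K : Type*} [Field K]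
    (φ : ZMod p →+* K) (H : Set GQ) (hH : ∀ g : GQ, g * g ∈ H)
    (V : Submodule K (Fin 2 → K)) (hV : ∀ σ ∈ H, ∀ x ∈ V, φ.mapMatrix (ρ σ) *ᵥ x ∈ V) :
    V = ⊥ ∨ V = ⊤ := by
  obtain ⟨σ, h0, h1⟩ := h.exists_transvection
  exact strong_irred ρ h.irr h0 h1 (two_ne_zero_zmod hp2) φ H hH V hV

/-- on every subgroup of index two -/
theorem FreyLike.strong_index_two (h : FreyLike p ρ) (hp2 : p ≠ 2) {K : Type*} [Field K]
    (φ : ZMod p →+* K) (G : Subgroup GQ) (hG : G.index = 2)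
    (V : Submodule K (Fin 2 → K)) (hV : ∀ σ ∈ G, ∀ x ∈ V, φ.mapMatrix (ρ σ) *ᵥ x ∈ V) :
    V = ⊥ ∨ V = ⊤ :=
  h.strong hp2 φ G (fun g => Subgroup.mul_self_mem_of_index_two hG g) V hV

/-- the image spans the matrix algebra -/
theorem FreyLike.span (h : FreyLike p ρ) (hp2 : p ≠ 2) :
    Submodule.span (ZMod p) (Set.range ρ) = ⊤ := by
  obtain ⟨σ, h0, h1⟩ := h.exists_transvection
  exact span_eq_top ρ h.irr h0 h1 (two_ne_zero_zmod hp2)

end Cons

end Fermat.Agent.S43Glue
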