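import Fermat.Agent.S43Glue.Ram2

set_option autoImplicit false
set_option maxHeartbeats 400000

/-! Point counts are unchanged under a change of variables. -/

namespace Fermat.Agent.S43Glue

open WeierstrassCurve

section VC

variable {F : Type*} [Field F] (C : VariableChange F) (W : WeierstrassCurve F)

lemma equation_vc (x y : F) :
    (C • W).toAffine.Equation ((C.u⁻¹ : Fˣ) ^ 2 * (x - C.r)) ((C.u⁻¹ : Fˣ) ^ 3 * (y - C.s * (x - C.r) - C.t)) ↔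
      W.toAffine.Equation x y := by
  rw [WeierstrassCurve.Affine.equation_iff', WeierstrassCurve.Affine.equation_iff']
  have hu : ((C.u⁻¹ : Fˣ) : F) ≠ 0 := Units.ne_zero _
  rw [show ((C • W).toAffine.a₁ : F) = (C • W).a₁ from rfl]
  simp only [variableChange_a₁, variableChange_a₂, variableChange_a₃, variableChange_a₄,
    variableChange_a₆]
  constructor
  · intro h
    have h6 : ((C.u⁻¹ : Fˣ) : F) ^ 6 ≠ 0 := pow_ne_zero 6 hu
    apply mul_left_cancel₀ h6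
    rw [mul_zero, ← h]
    ring
  · intro h
    have : ((C.u⁻¹ : Fˣ) : F) ^ 6 * (y ^ 2 + W.a₁ * x * y + W.a₃ * y - (x ^ 3 + W.a₂ * x ^ 2 + W.a₄ * x + W.a₆)) = 0 := by
      rw [h, mul_zero]
    rw [← this]
    ring

/-- the map on points -/
noncomputable def vcPoint (hΔ : W.Δ ≠ 0) : W.toAffine.Point → (C • W).toAffine.Point
  | .zero => .zero
  | .some x y h => .some _ _ (((C • W).toAffine.equation_iff_nonsingular_of_Δ_ne_zero (by
      rw [variableChange_Δ]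
      exact mul_ne_zero (pow_ne_zero _ (Units.ne_zero _)) hΔ)).mp ((equation_vc C W x y).mpr h.1))

lemma vcPoint_bijective (hΔ : W.Δ ≠ 0) : Function.Bijective (vcPoint C W hΔ) := by
  have hu : ((C.u⁻¹ : Fˣ) : F) ≠ 0 := Units.ne_zero _
  constructor
  · rintro (_ | ⟨x, y, h⟩) (_ | ⟨x', y', h'⟩) hxy
    · rfl
    · simp only [vcPoint, reduceCtorEq] at hxy
    · simp only [vcPoint, reduceCtorEq] at hxy
    · simp only [vcPoint, Affine.Point.some.injEq] at hxy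
      obtain ⟨h1, h2⟩ := hxy
      have e1 : x = x' := by
        have := mul_left_cancel₀ (pow_ne_zero 2 hu) h1
        linear_combination this
      subst e1
      have e2 : y = y' := by
        have := mul_left_cancel₀ (pow_ne_zero 3 hu) h2
        linear_combination this
      subst e2
      rfl
  · rintro (_ | ⟨x', y', h'⟩)
    · exact ⟨.zero, rfl⟩
    · have e1 : ((C.u⁻¹ : Fˣ) : F) ^ 2 * (((C.u : Fˣ) : F) ^ 2 * x' + C.r - C.r) = x' := by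
        rw [add_sub_cancel_right, ← mul_assoc, ← mul_pow, Units.inv_mul, one_pow, one_mul]
      have e2 : ((C.u⁻¹ : Fˣ) : F) ^ 3 * (((C.u : Fˣ) : F) ^ 3 * y' +
          C.s * (((C.u : Fˣ) : F) ^ 2 * x') + C.t - C.s * (((C.u : Fˣ) : F) ^ 2 * x' + C.r - C.r) -
          C.t) = y' := by
        have : ((C.u⁻¹ : Fˣ) : F) ^ 3 * ((C.u : Fˣ) : F) ^ 3 = 1 := by
          rw [← mul_pow, Units.inv_mul, one_pow]
        linear_combination y' * this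
      have heq : W.toAffine.Equation (((C.u : Fˣ) : F) ^ 2 * x' + C.r)
          (((C.u : Fˣ) : F) ^ 3 * y' + C.s * (((C.u : Fˣ) : F) ^ 2 * x') + C.t) := by
        rw [← equation_vc C W, e1, e2]
        exact h'.1
      refine ⟨.some _ _ ((W.toAffine.equation_iff_nonsingular_of_Δ_ne_zero hΔ).mp heq), ?_⟩
      simp only [vcPoint, Affine.Point.some.injEq]
      exact ⟨e1, e2⟩

theorem traceOfFrobenius_vc (hΔ : W.Δ ≠ 0) :
    (C • W).traceOfFrobenius = W.traceOfFrobenius := by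
  have h : (C • W).card = W.card := (Nat.card_eq_of_bijective _ (vcPoint_bijective C W hΔ)).symm
  rw [traceOfFrobenius, traceOfFrobenius, h]

end VC

section Int

/-- lifting a rational change of variables to `ℤ_ℓ` -/
lemma exists_vc_padic (C : VariableChange ℚ) (ℓ : ℕ) [hℓ : Fact ℓ.Prime]
    (h1 : ¬ ℓ ∣ ((C.u : ℚˣ) : ℚ).den) (h2 : ¬ ℓ ∣ ((C.u⁻¹ : ℚˣ) : ℚ).den) (h3 : ¬ ℓ ∣ C.r.den)
    (h4 : ¬ ℓ ∣ C.s.den) (h5 : ¬ ℓ ∣ C.t.den) :
    ∃ C' : VariableChange ℤ_[ℓ], C'.map (PadicInt.Coe.ringHom (p := ℓ)) =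
      C.map (Rat.castHom ℚ_[ℓ]) := by
  let u : ℤ_[ℓ] := ⟨(((C.u : ℚˣ) : ℚ) : ℚ_[ℓ]), Padic.norm_rat_le_one h1⟩
  let u' : ℤ_[ℓ] := ⟨(((C.u⁻¹ : ℚˣ) : ℚ) : ℚ_[ℓ]), Padic.norm_rat_le_one h2⟩
  have huu : u * u' = 1 := by
    apply Subtype.ext
    show (((C.u : ℚˣ) : ℚ) : ℚ_[ℓ]) * (((C.u⁻¹ : ℚˣ) : ℚ) : ℚ_[ℓ]) = 1
    rw [← Rat.cast_mul, Units.mul_inv, Rat.cast_one]
  refine ⟨⟨⟨u, u', huu, by rw [mul_comm]; exact huu⟩, ⟨(C.r : ℚ_[ℓ]), Padic.norm_rat_le_one h3⟩,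
    ⟨(C.s : ℚ_[ℓ]), Padic.norm_rat_le_one h4⟩, ⟨(C.t : ℚ_[ℓ]), Padic.norm_rat_le_one h5⟩⟩, ?_⟩
  ext <;> rfl

/-- for almost all primes the traces of Frobenius of two integral models agree -/
theorem apOfModel_eq {W W' : WeierstrassCurve ℤ} (C : VariableChange ℚ)
    (hC : C • (W.map (Int.castRingHom ℚ)) = W'.map (Int.castRingHom ℚ)) (hΔ : W.Δ ≠ 0) :
    ∃ S : Set ℕ, S.Finite ∧ ∀ ℓ : ℕ, ℓ.Prime → ℓ ∉ S → W'.apOfModel ℓ = W.apOfModel ℓ := by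
  let n : ℕ := ((C.u : ℚˣ) : ℚ).den * ((C.u⁻¹ : ℚˣ) : ℚ).den * C.r.den * C.s.den * C.t.den *
    W.Δ.natAbs
  have hn : n ≠ 0 := by
    simp only [n, mul_ne_zero_iff]
    exact ⟨⟨⟨⟨⟨Rat.den_nz _, Rat.den_nz _⟩, Rat.den_nz _⟩, Rat.den_nz _⟩, Rat.den_nz _⟩,
      Int.natAbs_ne_zero.mpr hΔ⟩
  refine ⟨{ℓ | ℓ ∣ n}, (Set.finite_le_nat n).subset fun ℓ hℓ =>
    Nat.le_of_dvd (Nat.pos_of_ne_zero hn) hℓ, fun ℓ hℓ hℓn => ?_⟩
  have : Fact ℓ.Prime := ⟨hℓ⟩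
  change ¬ ℓ ∣ n at hℓn
  have hd : ∀ a b : ℕ, ¬ ℓ ∣ a * b → ¬ ℓ ∣ a ∧ ¬ ℓ ∣ b := fun a b h =>
    ⟨fun h1 => h (h1.mul_right b), fun h1 => h (h1.mul_left a)⟩
  obtain ⟨hℓn, h6⟩ := hd _ _ hℓn
  obtain ⟨hℓn, h5⟩ := hd _ _ hℓn
  obtain ⟨hℓn, h4⟩ := hd _ _ hℓn
  obtain ⟨hℓn, h3⟩ := hd _ _ hℓn
  obtain ⟨h1, h2⟩ := hd _ _ hℓn
  obtain ⟨C', hC'⟩ := exists_vc_padic C ℓ h1 h2 h3 h4 h5
  -- the identity over `ℤ_ℓ`
  have key : C' • (W.map (Int.castRingHom ℤ_[ℓ])) = W'.map (Int.castRingHom ℤ_[ℓ]) := by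
    have hinj : Function.Injective (PadicInt.Coe.ringHom (p := ℓ)) := Subtype.coe_injective
    apply WeierstrassCurve.map_injective hinj
    change (C' • (W.map (Int.castRingHom ℤ_[ℓ]))).map (PadicInt.Coe.ringHom (p := ℓ)) =
      (W'.map (Int.castRingHom ℤ_[ℓ])).map (PadicInt.Coe.ringHom (p := ℓ))
    rw [← map_variableChange, hC', WeierstrassCurve.map_map, WeierstrassCurve.map_map]
    have e1 : (PadicInt.Coe.ringHom (p := ℓ)).comp (Int.castRingHom ℤ_[ℓ]) =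
        (Rat.castHom ℚ_[ℓ]).comp (Int.castRingHom ℚ) := RingHom.ext_int _ _
    rw [e1, ← WeierstrassCurve.map_map, ← WeierstrassCurve.map_map, map_variableChange, hC]
  have key2 : C'.map (PadicInt.toZMod (p := ℓ)) • (W.reductionMod ℓ) = W'.reductionMod ℓ := by
    have e1 : (PadicInt.toZMod (p := ℓ)).comp (Int.castRingHom ℤ_[ℓ]) =
        Int.castRingHom (ZMod ℓ) := RingHom.ext_int _ _
    rw [reductionMod, reductionMod, ← e1, ← WeierstrassCurve.map_map,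
      ← WeierstrassCurve.map_map, map_variableChange, key]
  rw [apOfModel, apOfModel, ← key2]
  refine traceOfFrobenius_vc _ _ ?_
  rw [reductionMod, map_Δ]
  intro h
  apply h6
  rw [eq_intCast, ZMod.intCast_zmod_eq_zero_iff_dvd] at h
  exact Int.natCast_dvd.mp h

end Int

end Fermat.Agent.S43Glue
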