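import Fermat.Agent.S43Glue.Dict

set_option autoImplicit false
set_option maxHeartbeats 400000
set_option linter.style.haveILetI false

/-! Classical eigenforms congruent to a mod `p` representation. -/

namespace Fermat.Agent.S43Glue

open Fermat.Agent.GalRep CuspForm CongruenceSubgroup ModularFormClass

local notation "Qbar" => AlgebraicClosure ℚ
local notation "GQ" => Qbar ≃ₐ[ℚ] Qbar
local notation "Oc" => integralClosure ℤ ℂ

section Descend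

lemma exists_descend {R k K : Type*} [CommRing R] [Field k] [Field K] (φ : k →+* K)
    (θ : R →+* K) (h : ∀ x, θ x ∈ φ.fieldRange) : ∃ θ' : R →+* k, φ.comp θ' = θ := by
  choose θ' hθ' using h
  have hinj := φ.injective
  refine ⟨{ toFun := θ', map_one' := ?_, map_mul' := ?_, map_zero' := ?_, map_add' := ?_ }, ?_⟩
  · apply hinj
    rw [hθ', map_one, map_one]
  · intro x y
    apply hinj
    rw [map_mul, hθ', hθ', hθ', map_mul]
  · apply hinj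
    rw [hθ', map_zero, map_zero]
  · intro x y
    apply hinj
    rw [map_add, hθ', hθ', hθ', map_add]
  · ext x
    exact hθ' x

end Descend

section Cl

variable {p : ℕ} [hp : Fact p.Prime]

/-- `f` mod `𝔪` is congruent to `ρ` away from `S` -/
def CongTo (ρ : GQ →* Matrix (Fin 2) (Fin 2) (ZMod p)) {M : ℕ} (f : CuspForm (Gamma0 M) 2)
    (𝔪 : Ideal Oc) (S : Set ℕ) : Prop :=
  ∀ ℓ : ℕ, ℓ.Prime → ℓ ∉ S → ∀ A : ValuationSubring Qbar, A.LiesOverPrime ℓ →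
    ∀ τ : GQ, A.IsFrobeniusAt τ ℓ → ∃ (a : Oc) (n : ℤ), (a : ℂ) = qCoeff f ℓ ∧
      (n : ZMod p) = (ρ τ).trace ∧ a - n ∈ 𝔪

/-- congruent eigenforms give homomorphisms of the Hecke algebra -/
theorem hmod_of_congTo {ρ : GQ →* Matrix (Fin 2) (Fin 2) (ZMod p)} {M : ℕ} [NeZero M]
    {f : CuspForm (Gamma0 M) 2} (hf : f.IsNormalizedEigenform) {𝔪 : Ideal Oc} (h𝔪 : 𝔪.IsMaximal)
    (hp𝔪 : (p : Oc) ∈ 𝔪) {S : Set ℕ} (hM : ∀ q : ℕ, q.Prime → q ∣ M → q ∈ S)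
    (h : CongTo ρ f 𝔪 S) : HMod ρ M S := by
  letI : Field (Oc ⧸ 𝔪) := Ideal.Quotient.field 𝔪
  haveI : CharP (Oc ⧸ 𝔪) p := by
    rw [CharP.charP_iff_prime_eq_zero hp.out, ← map_natCast (Ideal.Quotient.mk 𝔪),
      Ideal.Quotient.eq_zero_iff_mem]
    exact hp𝔪
  let φ : ZMod p →+* Oc ⧸ 𝔪 := ZMod.castHom dvd_rfl _
  let θ₀ : heckeAlgebra M 2 S →+* Oc ⧸ 𝔪 := (Ideal.Quotient.mk 𝔪).comp ((eigChar hf).comp
    (Subalgebra.inclusion (heckeAlgebra_mono (Set.empty_subset S))).toRingHom)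
  have key : ∀ (ℓ : ℕ) (hℓ : ℓ.Prime) (hℓM : ¬ ℓ ∣ M) (hℓS : ℓ ∉ S),
      ∀ A : ValuationSubring Qbar, A.LiesOverPrime ℓ → ∀ τ : GQ, A.IsFrobeniusAt τ ℓ →
      θ₀ (heckeAlgebra.T hℓ hℓM hℓS) = φ (ρ τ).trace := by
    intro ℓ hℓ hℓM hℓS A hA τ hτ
    obtain ⟨a, n, ha, hn, han⟩ := h ℓ hℓ hℓS A hA τ hτ
    have h1 : eigChar hf (heckeAlgebra.T hℓ hℓM (Set.notMem_empty ℓ)) = a := by
      apply Subtype.ext
      rw [eigChar_T hf hℓ hℓM, ha]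
    have h2 : θ₀ (heckeAlgebra.T hℓ hℓM hℓS) = Ideal.Quotient.mk 𝔪 a := by
      rw [← h1]
      rfl
    rw [h2, ← hn, map_intCast, ← map_intCast (Ideal.Quotient.mk 𝔪),
      Ideal.Quotient.mk_eq_mk_iff_sub_mem]
    exact han
  obtain ⟨θ, hθ⟩ := exists_descend φ θ₀ fun x =>
    heckeAlgebra_range_le θ₀ φ.fieldRange (fun ℓ hℓ hℓM hℓS => by
      obtain ⟨A, hA, τ, hτ⟩ := Frob.exists_place_frobenius hℓ
      rw [key ℓ hℓ hℓM hℓS A hA τ hτ]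
      exact ⟨_, rfl⟩) hM x
  refine ⟨θ, fun ℓ hℓ hℓM hℓS A hA τ hτ => ?_⟩
  apply φ.injective
  rw [← key ℓ hℓ hℓM hℓS A hA τ hτ, ← hθ]
  rfl

/-- homomorphisms of the Hecke algebra give congruent eigenforms -/
theorem exists_congTo_of_hmod {ρ : GQ →* Matrix (Fin 2) (Fin 2) (ZMod p)} {M : ℕ} [NeZero M]
    {S : Set ℕ} (hM : ∀ q : ℕ, q.Prime → q ∣ M → q ∈ S) (h : HMod ρ M S) :
    ∃ (f : CuspForm (Gamma0 M) 2) (𝔪 : Ideal Oc), f.IsNormalizedEigenform ∧ 𝔪.IsMaximal ∧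
      (p : Oc) ∈ 𝔪 ∧ CongTo ρ f 𝔪 S := by
  obtain ⟨θ, hθ⟩ := h
  haveI : Module.Finite ℤ (heckeAlgebra M 2 ∅) := Fermat.Agent.S22.result M 2 ∅
  have hsurj : Function.Surjective θ := by
    intro x
    exact ⟨((x.val : ℕ) : heckeAlgebra M 2 S), by rw [map_natCast, ZMod.natCast_val, ZMod.cast_id]⟩
  let ι := (Subalgebra.inclusion (heckeAlgebra_mono (N := M) (k := 2) (Set.empty_subset S))).toRingHom
  letI : Algebra (heckeAlgebra M 2 S) (heckeAlgebra M 2 ∅) := ι.toAlgebra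
  haveI : Algebra.IsIntegral (heckeAlgebra M 2 S) (heckeAlgebra M 2 ∅) :=
    ⟨inclusion_isIntegral (Set.empty_subset S)⟩
  haveI : (RingHom.ker θ).IsMaximal := RingHom.ker_isMaximal_of_surjective θ hsurj
  obtain ⟨𝔐, h𝔐, hcomap⟩ := Ideal.exists_ideal_over_maximal_of_isIntegral
    (S := heckeAlgebra M 2 ∅) (RingHom.ker θ) (by
      intro x hx
      have hx' : ι x = 0 := hx
      have h0 : x = 0 := Subalgebra.inclusion_injective _ (by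
        change ι x = ι 0
        rw [hx', map_zero])
      rw [h0]
      exact zero_mem _)
  obtain ⟨f, hf, χ, 𝔪, h𝔪, hχ, -, hco⟩ := DSLift.exists_eigenform_of_isMaximal M 𝔐
  have hmem : ∀ x : heckeAlgebra M 2 S, θ x = 0 → χ (ι x) ∈ 𝔪 := by
    intro x hx
    have h1 : ι x ∈ 𝔐 := by
      have h2 : x ∈ RingHom.ker θ := hx
      rw [← hcomap] at h2
      exact h2
    rw [← hχ] at h1
    exact h1
  refine ⟨f, 𝔪, hf, h𝔪, ?_, ?_⟩
  · have h1 := hmem (p : heckeAlgebra M 2 S) (by rw [map_natCast, ZMod.natCast_self])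
    rwa [map_natCast, map_natCast] at h1
  · intro ℓ hℓ hℓS A hA τ hτ
    have hℓM : ¬ ℓ ∣ M := fun h => hℓS (hM ℓ hℓ h)
    refine ⟨χ (ι (heckeAlgebra.T hℓ hℓM hℓS)), ((ρ τ).trace.val : ℤ), ?_, ?_, ?_⟩
    · rw [← hco ℓ hℓ]
      congr 2
      apply Subtype.ext
      show heckeTLin 2 hℓ hℓM = _
      show _ = DSLift.heckeOp M 2 hℓ
      rw [DSLift.heckeOp_of_not_dvd hℓ hℓM]
    · rw [Int.cast_natCast, ZMod.natCast_val, ZMod.cast_id]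
    · have h1 := hmem (heckeAlgebra.T hℓ hℓM hℓS -
          (((ρ τ).trace.val : ℤ) : heckeAlgebra M 2 S)) (by
        rw [map_sub, ← hθ ℓ hℓ hℓM hℓS A hA τ hτ, map_intCast, Int.cast_natCast,
          ZMod.natCast_val, ZMod.cast_id, sub_self])
      rwa [map_sub, map_sub, map_intCast, map_intCast] at h1

end Cl

section Frey

variable (P : FreyPackage) [hp : Fact P.p.Prime]

/-- **(G4)** modularity of the Frey representation in terms of the Hecke algebra -/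
theorem hmod_of_modularRepOfLevel {ρ : GQ →* Matrix (Fin 2) (Fin 2) (ZMod P.p)}
    (hρ : FreyLike P.p ρ)
    (htr : ∀ ℓ : ℕ, ℓ.Prime → P.freyCurveInt.IsGoodPrimeFor ℓ → ℓ ≠ P.p →
        ∀ A : ValuationSubring Qbar, A.LiesOverPrime ℓ → ∀ τ : GQ, A.IsFrobeniusAt τ ℓ →
          (ρ τ).trace = ((P.freyCurveInt.apOfModel ℓ : ℤ) : ZMod P.p))
    {N : ℕ} [NeZero N] (hmod : P.ModularRepOfLevel N) {S : Set ℕ} (hpS : P.p ∈ S)
    (hNS : ∀ q : ℕ, q.Prime → q ∣ N → q ∈ S) : HMod ρ N S := by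
  obtain ⟨f, W, 𝔪, hf, ⟨C, hC⟩, h𝔪, hp𝔪, hcong⟩ := hmod
  have hC' : C • (P.freyCurveInt.map (Int.castRingHom ℚ)) = W.map (Int.castRingHom ℚ) := by
    rw [← freyCurve_eq P, hC]
  obtain ⟨S₁, hS₁, hap⟩ := apOfModel_eq C hC' (freyInt_Δ_ne P)
  have hWΔ : W.Δ ≠ 0 := by
    intro h
    have h1 := congrArg WeierstrassCurve.Δ hC'
    rw [WeierstrassCurve.variableChange_Δ, WeierstrassCurve.map_Δ, WeierstrassCurve.map_Δ, h,
      map_zero] at h1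
    rcases mul_eq_zero.mp h1 with h2 | h2
    · exact Units.ne_zero _ (pow_eq_zero_iff (by norm_num) |>.mp h2)
    · exact freyInt_Δ_ne P (by rw [eq_intCast] at h2; exact_mod_cast h2)
  let S₂ : Set ℕ := {ℓ | ℓ ∣ W.Δ.natAbs}
  have hS₂ : S₂.Finite := (Set.finite_le_nat _).subset fun ℓ hℓ =>
    Nat.le_of_dvd (Nat.pos_of_ne_zero (Int.natAbs_ne_zero.mpr hWΔ)) hℓ
  let S₃ : Set ℕ := {ℓ | ℓ ∣ N}
  have hS₃ : S₃.Finite := (Set.finite_le_nat _).subset fun ℓ hℓ =>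
    Nat.le_of_dvd (NeZero.pos N) hℓ
  let S₀ : Set ℕ := {P.p} ∪ S₃
  have hS₀ : S₀.Finite := (Set.finite_singleton _).union hS₃
  let S' : Set ℕ := S₀ ∪ (S₁ ∪ (S₂ ∪ badF P))
  have hS' : S'.Finite := hS₀.union (hS₁.union (hS₂.union (badF_finite P)))
  have hNS' : ∀ q : ℕ, q.Prime → q ∣ N → q ∈ S₀ := fun q _ hq => Or.inr hq
  have hbig : HMod ρ N S' := by
    refine hmod_of_congTo hf h𝔪 hp𝔪 (fun q hq hqN => Or.inl (hNS' q hq hqN)) ?_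
    intro ℓ hℓ hℓS A hA τ hτ
    have h0 : ℓ ∉ S₀ := fun h => hℓS (Or.inl h)
    have h1 : ℓ ∉ S₁ := fun h => hℓS (Or.inr (Or.inl h))
    have h2 : ℓ ∉ S₂ := fun h => hℓS (Or.inr (Or.inr (Or.inl h)))
    have h3 : ℓ ∉ badF P := fun h => hℓS (Or.inr (Or.inr (Or.inr h)))
    obtain ⟨hgood, hℓp⟩ := good_of_notMem_badF P h3
    have hℓN : ¬ ℓ ∣ N := fun h => h0 (Or.inr h)
    obtain ⟨a, ha, haW⟩ := hcong ℓ hℓ (fun h => h2 (Int.natCast_dvd.mp h)) hℓN hℓp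
    refine ⟨a, W.apOfModel ℓ, ha, ?_, haW⟩
    rw [htr ℓ hℓ hgood hℓp A hA τ hτ, hap ℓ hℓ h1]
  have hsm : HMod ρ N S₀ := hbig.shrink hρ.level hρ.det hS' Set.subset_union_left
    (Or.inl rfl) hNS'
  by_cases hS₀S : ∀ x ∈ S₀, x ∈ S ∨ ¬ x.Prime
  · -- compare generators
    obtain ⟨θ, hθ⟩ := hsm
    have hle : heckeAlgebra N 2 S ≤ heckeAlgebra N 2 S₀ := by
      apply Algebra.adjoin_mono
      rintro T (⟨ℓ, hℓ, hℓN, hℓS, rfl⟩ | ⟨q, hqN, hq, hqS, rfl⟩)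
      · exact heckeTLin_mem_heckeGenerators hℓ hℓN fun h =>
          (hS₀S ℓ h).elim (fun h => hℓS h) (fun h => h hℓ)
      · exact absurd (hNS q hq hqN) hqS
    refine ⟨θ.comp (Subalgebra.inclusion hle).toRingHom, ?_⟩
    intro ℓ hℓ hℓN hℓS A hA τ hτ
    exact hθ ℓ hℓ hℓN (fun h => (hS₀S ℓ h).elim (fun h => hℓS h) (fun h => h hℓ)) A hA τ hτ
  · exfalso
    apply hS₀S
    rintro x (h | h)
    · rw [Set.mem_singleton_iff] at h
      rw [h]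
      exact Or.inl hpS
    · by_cases hx : x.Prime
      · exact Or.inl (hNS x hx h)
      · exact Or.inr hx

/-- back to the classical form -/
theorem modularRepOfLevel_of_hmod {ρ : GQ →* Matrix (Fin 2) (Fin 2) (ZMod P.p)}
    (hρ : FreyLike P.p ρ)
    (htr : ∀ ℓ : ℕ, ℓ.Prime → P.freyCurveInt.IsGoodPrimeFor ℓ → ℓ ≠ P.p →
        ∀ A : ValuationSubring Qbar, A.LiesOverPrime ℓ → ∀ τ : GQ, A.IsFrobeniusAt τ ℓ →
          (ρ τ).trace = ((P.freyCurveInt.apOfModel ℓ : ℤ) : ZMod P.p))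
    {M : ℕ} [NeZero M] {S : Set ℕ} (hS : S.Finite) (h : HMod ρ M S) : P.ModularRepOfLevel M := by
  let S₀ : Set ℕ := {P.p} ∪ {ℓ | ℓ ∣ M}
  have hS₀ : S₀.Finite := (Set.finite_singleton _).union ((Set.finite_le_nat M).subset
    fun ℓ hℓ => Nat.le_of_dvd (NeZero.pos M) hℓ)
  have hMS₀ : ∀ q : ℕ, q.Prime → q ∣ M → q ∈ S₀ := fun q _ hq => Or.inr hq
  have h1 : HMod ρ M (S ∪ S₀) := h.mono Set.subset_union_left
  have h2 : HMod ρ M S₀ := h1.shrink hρ.level hρ.det (hS.union hS₀) Set.subset_union_right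
    (Or.inl rfl) hMS₀
  obtain ⟨f, 𝔪, hf, h𝔪, hp𝔪, hc⟩ := exists_congTo_of_hmod hMS₀ h2
  refine ⟨f, P.freyCurveInt, 𝔪, hf, ⟨1, by rw [one_smul]; exact freyCurve_eq P⟩, h𝔪, hp𝔪, ?_⟩
  intro ℓ hℓ hgood hℓM hℓp
  obtain ⟨A, hA, τ, hτ⟩ := Frob.exists_place_frobenius hℓ
  obtain ⟨a, n, ha, hn, han⟩ := hc ℓ hℓ (by
    rintro (h | h)
    · exact hℓp h
    · exact hℓM h) A hA τ hτ
  refine ⟨a, ha, ?_⟩
  rw [htr ℓ hℓ hgood hℓp A hA τ hτ, ZMod.intCast_eq_intCast_iff_dvd_sub] at hn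
  obtain ⟨c, hc⟩ := hn
  have h3 : a - ((P.freyCurveInt.apOfModel ℓ : ℤ) : Oc) = (a - n) - (P.p : Oc) * c := by
    have h4 : ((P.freyCurveInt.apOfModel ℓ : ℤ) : Oc) - n = P.p * c := by exact_mod_cast congrArg (Int.cast : ℤ → Oc) hc
    linear_combination -h4
  rw [h3]
  exact 𝔪.sub_mem han (𝔪.mul_mem_right _ hp𝔪)

end Frey

end Fermat.Agent.S43Glue
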