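import Fermat.Agent.S43Glue.Classical
import Fermat.Agent.Newform.Mult
import Fermat.Prelude.Def_CuspForm_Newforms

set_option autoImplicit false
set_option maxHeartbeats 400000
set_option linter.style.haveILetI false

/-! Characteristic zero points of the Hecke algebra come from newforms. -/

namespace Fermat.Agent.S43Glue

open Fermat.Agent.GalRep CuspForm CongruenceSubgroup ModularFormClass

local notation "Qbar" => AlgebraicClosure ℚ
local notation "GQ" => Qbar ≃ₐ[ℚ] Qbar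

section Pt

/-- primes of the Hecke algebra of characteristic zero are minimal -/
lemma mem_minimalPrimes_of_charZero {R : Type*} [CommRing R] [Module.Finite ℤ R] (𝔭 : Ideal R)
    [h𝔭 : 𝔭.IsPrime] (h0 : ∀ n : ℤ, (n : R) ∈ 𝔭 → n = 0) : 𝔭 ∈ minimalPrimes R := by
  have h1 := Ideal.IsIntegral.mem_minimalPrimes_map_under (R := ℤ) 𝔭
  have h2 : (𝔭.under ℤ).map (algebraMap ℤ R) = ⊥ := by
    have h3 : 𝔭.under ℤ = ⊥ := by
      rw [eq_bot_iff]
      intro n hn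
      have h4 : algebraMap ℤ R n ∈ 𝔭 := hn
      rw [eq_intCast] at h4
      exact h0 n h4
    rw [h3, Ideal.map_bot]
  rw [h2] at h1
  exact h1

/-- **Points of characteristic zero of the Hecke algebra come from newforms.** -/
theorem exists_newform_of_point {M : ℕ} [NeZero M] {S : Set ℕ}
    (hM : ∀ q : ℕ, q.Prime → q ∣ M → q ∈ S) {D : Type*} [CommRing D] [IsDomain D] [CharZero D]
    (x : heckeAlgebra M 2 S →+* D) :
    ∃ (M₁ : ℕ) (_ : NeZero M₁) (hM₁ : M₁ ∣ M) (g : CuspForm (Gamma0 M₁) 2) (_ : g.IsNewform)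
      (chig : heckeAlgebra M₁ 2 S →+* ℂ) (iota : chig.range →+* D),
      (∀ (ℓ : ℕ) (hℓ : ℓ.Prime) (hℓM : ¬ ℓ ∣ M₁) (hℓS : ℓ ∉ S),
        chig (heckeAlgebra.T hℓ hℓM hℓS) = qCoeff g ℓ) ∧
      ∀ (ℓ : ℕ) (hℓ : ℓ.Prime) (hℓM : ¬ ℓ ∣ M) (hℓS : ℓ ∉ S),
        (iota.comp chig.rangeRestrict) (heckeAlgebra.T hℓ (fun h => hℓM (h.trans hM₁)) hℓS) =
          x (heckeAlgebra.T hℓ hℓM hℓS) := by
  haveI : Module.Finite ℤ (heckeAlgebra M 2 ∅) := Fermat.Agent.S22.result M 2 ∅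
  let ι := (Subalgebra.inclusion (heckeAlgebra_mono (N := M) (k := 2) (Set.empty_subset S))).toRingHom
  have hιinj : Function.Injective ι := Subalgebra.inclusion_injective _
  letI : Algebra (heckeAlgebra M 2 S) (heckeAlgebra M 2 ∅) := ι.toAlgebra
  haveI : Algebra.IsIntegral (heckeAlgebra M 2 S) (heckeAlgebra M 2 ∅) :=
    ⟨inclusion_isIntegral (Set.empty_subset S)⟩
  haveI hkp : (RingHom.ker x).IsPrime := RingHom.ker_isPrime x
  obtain ⟨𝔓, -, h𝔓, hcomap⟩ := Ideal.exists_ideal_over_prime_of_isIntegral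
    (S := heckeAlgebra M 2 ∅) (RingHom.ker x) ⊥ (by
      intro y hy
      have hy' : ι y = 0 := hy
      have h0 : y = 0 := hιinj (by rw [hy', map_zero])
      rw [h0]
      exact zero_mem _)
  haveI := h𝔓
  have hcz : ∀ n : ℤ, (n : heckeAlgebra M 2 ∅) ∈ 𝔓 → n = 0 := by
    intro n hn
    have h1 : (n : heckeAlgebra M 2 S) ∈ RingHom.ker x := by
      rw [← hcomap]
      show ι (n : heckeAlgebra M 2 S) ∈ 𝔓
      rwa [map_intCast]
    rw [RingHom.mem_ker, map_intCast] at h1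
    exact_mod_cast h1
  obtain ⟨Ψ, hΨ⟩ := DSLift.exists_algHom_comap_eq M 2 𝔓 (mem_minimalPrimes_of_charZero 𝔓 hcz)
  obtain ⟨f, hf1, hf⟩ := DSLift.exists_eigenvector_of_algHom M 2 Ψ
  have hfe : f.IsNormalizedEigenform := DSLift.isNormalizedEigenform_of_eigen M hf1 fun p hp =>
    ⟨_, by
      have := hf ⟨DSLift.heckeOp M 2 hp, DSLift.heckeOp_mem_heckeC hp⟩
      exact this⟩
  -- the character of `f`
  let χf : heckeAlgebra M 2 S →+* ℂ := ((Ψ : DSLift.heckeC M 2 →+* ℂ).comp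
    (DSLift.toHeckeC M 2)).comp ι
  have hχT : ∀ (ℓ : ℕ) (hℓ : ℓ.Prime) (hℓM : ¬ ℓ ∣ M) (hℓS : ℓ ∉ S),
      χf (heckeAlgebra.T hℓ hℓM hℓS) = qCoeff f ℓ := by
    intro ℓ hℓ hℓM hℓS
    have h1 := hf (DSLift.toHeckeC M 2 (ι (heckeAlgebra.T hℓ hℓM hℓS)))
    have h2 : ((DSLift.toHeckeC M 2 (ι (heckeAlgebra.T hℓ hℓM hℓS)) : DSLift.heckeC M 2) :
        Module.End ℂ (CuspForm (Gamma0 M) 2)) = DSLift.heckeOp M 2 hℓ := by
      rw [DSLift.heckeOp_of_not_dvd hℓ hℓM]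
      rfl
    rw [h2] at h1
    exact (DSLift.qCoeff_prime_of_eigen M 2 hf1 hℓ h1).symm
  have hker : ∀ t, χf t = 0 ↔ x t = 0 := by
    intro t
    have h1 : χf t = 0 ↔ ι t ∈ 𝔓 := by
      rw [← hΨ]
      rfl
    have h2 : x t = 0 ↔ ι t ∈ 𝔓 := by
      have h3 : x t = 0 ↔ t ∈ RingHom.ker x := Iff.rfl
      rw [h3, ← hcomap]
      rfl
    rw [h1, h2]
  -- the newform
  obtain ⟨M₁, hM₁, g, hg, hgf⟩ := Newform.exists_newform hfe
  haveI : NeZero M₁ := ⟨fun h => NeZero.ne M (Nat.eq_zero_of_zero_dvd (h ▸ hM₁))⟩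
  let chig : heckeAlgebra M₁ 2 S →+* ℂ := (eigHom hg.1).comp
    (Subalgebra.inclusion (heckeAlgebra_mono (Set.empty_subset S))).toRingHom
  have hchig : ∀ (ℓ : ℕ) (hℓ : ℓ.Prime) (hℓM : ¬ ℓ ∣ M₁) (hℓS : ℓ ∉ S),
      chig (heckeAlgebra.T hℓ hℓM hℓS) = qCoeff g ℓ := by
    intro ℓ hℓ hℓM hℓS
    exact eigChar_T hg.1 hℓ hℓM
  -- comparison of the images
  have hrange : ∀ t : heckeAlgebra M₁ 2 S, chig t ∈ χf.range := by
    rintro ⟨t, ht⟩
    refine Algebra.adjoin_induction (p := fun t ht => chig ⟨t, ht⟩ ∈ χf.range) ?_ ?_ ?_ ?_ ht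
    · rintro t (⟨ℓ, hℓ, hℓN, hℓS, rfl⟩ | ⟨q, hqN, hq, hqS, rfl⟩)
      · have hℓM : ¬ ℓ ∣ M := fun h => hℓS (hM ℓ hℓ h)
        have h1 := hchig ℓ hℓ hℓN hℓS
        rw [hgf ℓ hℓ hℓM, ← hχT ℓ hℓ hℓM hℓS] at h1
        exact ⟨_, h1.symm⟩
      · exact absurd (hM q hq (hqN.trans hM₁)) hqS
    · intro r
      have h1 : chig (algebraMap ℤ (heckeAlgebra M₁ 2 S) r) ∈ χf.range := by
        rw [eq_intCast, map_intCast]
        exact ⟨(r : heckeAlgebra M 2 S), map_intCast _ _⟩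
      exact h1
    · intro y z hy hz h1 h2
      have h3 : chig (⟨y, hy⟩ + ⟨z, hz⟩) ∈ χf.range := by
        rw [map_add]; exact χf.range.add_mem h1 h2
      exact h3
    · intro y z hy hz h1 h2
      have h3 : chig (⟨y, hy⟩ * ⟨z, hz⟩) ∈ χf.range := by
        rw [map_mul]; exact χf.range.mul_mem h1 h2
      exact h3
  have hle : chig.range ≤ χf.range := by
    rintro _ ⟨t, rfl⟩
    exact hrange t
  let j : χf.range →+* D := RingHom.liftOfSurjective χf.rangeRestrict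
    χf.rangeRestrict_surjective ⟨x, by
      intro t ht
      rw [RingHom.mem_ker] at ht ⊢
      exact (hker t).mp (congrArg Subtype.val ht)⟩
  have hj : ∀ t, j (χf.rangeRestrict t) = x t := fun t =>
    RingHom.liftOfSurjective_comp_apply χf.rangeRestrict χf.rangeRestrict_surjective _ t
  refine ⟨M₁, inferInstance, hM₁, g, hg, chig, j.comp (Subring.inclusion hle), hchig, ?_⟩
  intro ℓ hℓ hℓM hℓS
  rw [← hj]
  show j _ = j _
  congr 1
  apply Subtype.ext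
  show chig _ = χf _
  rw [hchig, hχT ℓ hℓ hℓM hℓS, hgf ℓ hℓ hℓM]

end Pt

end Fermat.Agent.S43Glue
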