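import Fermat.Agent.GalRep.Resid
import Fermat.Agent.FrobDens.Main

set_option autoImplicit false
set_option maxHeartbeats 400000

/-! The mod `p` cyclotomic character; trace and determinant of a two-dimensional representation
from a quadratic relation at Frobenius elements. -/

namespace Fermat.Agent.S43Glue

open Fermat.Agent.GalRep

local notation "Qbar" => AlgebraicClosure ℚ
local notation "GQ" => Qbar ≃ₐ[ℚ] Qbar

section Chi

variable (p : ℕ) [hp : Fact p.Prime] (k : Type*) [CommRing k] [CharP k p]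

/-- the mod `p` cyclotomic character with values in a ring of characteristic `p` -/
noncomputable def chiK : GQ →* k :=
  ((ZMod.castHom (dvd_refl p) k).comp (PadicInt.toZMod (p := p))).toMonoidHom.comp (cycP p)

lemma chiK_apply (g : GQ) :
    chiK p k g = ZMod.castHom (dvd_refl p) k (PadicInt.toZMod (cycP p g)) := rfl

lemma chiK_frob {A : ValuationSubring Qbar} {ℓ : ℕ} (hℓ : ℓ.Prime)
    (hA : A.LiesOverPrime ℓ) (hℓp : ℓ ≠ p) {τ : GQ} (hτ : A.IsFrobeniusAt τ ℓ) :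
    chiK p k τ = (ℓ : k) := by
  rw [chiK_apply, cycP_frob p hℓ hA hℓp hτ, map_natCast, map_natCast]

lemma chiK_inertia {A : ValuationSubring Qbar} {ℓ : ℕ} (hℓ : ℓ.Prime)
    (hA : A.LiesOverPrime ℓ) (hℓp : ℓ ≠ p) {σ : GQ} (hσ : σ ∈ A.inertiaSubgroupIn ℚ) :
    chiK p k σ = 1 := by
  rw [chiK_apply, cycP_inertia p hℓ hA hℓp hσ, map_one, map_one]

lemma chiK_finite : ∃ L : IntermediateField ℚ Qbar, FiniteDimensional ℚ L ∧
    ∀ σ : GQ, (∀ x ∈ L, σ x = x) → chiK p k σ = 1 := by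
  obtain ⟨L, hL, h⟩ := cycP_finite p 1
  refine ⟨L, hL, fun σ hσ => ?_⟩
  have h1 : cycP p σ - 1 ∈ RingHom.ker (PadicInt.toZModPow (p := p) 1) := by
    rw [RingHom.mem_ker, map_sub, map_one, h σ hσ, sub_self]
  rw [PadicInt.ker_toZModPow, pow_one, ← PadicInt.maximalIdeal_eq_span_p,
    ← PadicInt.ker_toZMod, RingHom.mem_ker, map_sub, map_one, sub_eq_zero] at h1
  rw [chiK_apply, h1, map_one]

lemma chiK_mul_inv (g : GQ) : chiK p k g * chiK p k g⁻¹ = 1 := by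
  rw [← map_mul, mul_inv_cancel, map_one]

/-- the cyclotomic character on a `p`-th root of unity -/
lemma chiK_spec (g : GQ) {ζ : Qbar} (hζ : IsPrimitiveRoot ζ p) {a : ℕ} (h : g ζ = ζ ^ a) :
    chiK p k g = (a : k) := by
  have hζ' : IsPrimitiveRoot ζ (p ^ 1) := by rwa [pow_one]
  have h1 := toZModPow_cycP_eq p g hζ' h
  have h2 : cycP p g - (a : ℤ_[p]) ∈ RingHom.ker (PadicInt.toZModPow (p := p) 1) := by
    rw [RingHom.mem_ker, map_sub, map_natCast, h1, sub_self]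
  rw [PadicInt.ker_toZModPow, pow_one, ← PadicInt.maximalIdeal_eq_span_p,
    ← PadicInt.ker_toZMod, RingHom.mem_ker, map_sub, map_natCast, sub_eq_zero] at h2
  rw [chiK_apply, h2, map_natCast]

end Chi

section Rep

variable {p : ℕ} [hp : Fact p.Prime] {k : Type} [Field k] [CharP k p]

/-- finite level -/
def FinLevel {M : Type*} [MulOneClass M] (T : GQ →* M) : Prop :=
  ∃ L : IntermediateField ℚ Qbar, FiniteDimensional ℚ L ∧
    ∀ σ : GQ, (∀ x ∈ L, σ x = x) → T σ = 1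

lemma FinLevel.congr {M : Type*} [Monoid M] {T : GQ →* M} {L : IntermediateField ℚ Qbar}
    (hL : ∀ σ : GQ, (∀ x ∈ L, σ x = x) → T σ = 1) {g h : GQ} (hgh : ∀ x ∈ L, g x = h x) :
    T g = T h := by
  have h1 : T (h⁻¹ * g) = 1 := by
    refine hL (h⁻¹ * g) fun x hx => ?_
    rw [AlgEquiv.mul_apply, hgh x hx]
    exact inv_smul_smul h x
  have h2 : g = h * (h⁻¹ * g) := by group
  rw [h2, map_mul, h1, mul_one]

/-- the quadratic relation from the one at Frobenius elements -/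
theorem mquad_of_frob {n : ℕ} (T : GQ →* Matrix (Fin n) (Fin n) k) (hT : FinLevel T)
    (S : Set ℕ) (hS : S.Finite) (hpS : p ∈ S) (a : ℕ → k)
    (hfr : ∀ ℓ : ℕ, ℓ.Prime → ℓ ∉ S → ∀ A : ValuationSubring Qbar, A.LiesOverPrime ℓ →
      ∀ τ : GQ, A.IsFrobeniusAt τ ℓ → T τ * T τ - a ℓ • T τ + (ℓ : k) • 1 = 0) :
    ∃ t : GQ → k, MQuad T t (chiK p k) := by
  have key : ∀ g : GQ, ∃ s : k, T g + chiK p k g • T g⁻¹ = s • (1 : Matrix (Fin n) (Fin n) k) := by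
    intro g
    obtain ⟨L₁, hL₁, h₁⟩ := hT
    obtain ⟨L₂, hL₂, h₂⟩ := chiK_finite p k
    obtain ⟨ℓ, hℓ, hℓS, A, hA, τ, hτ, m, -, hm, -⟩ :=
      FrobDens.exists_frobenius (L₁ ⊔ L₂) S hS g
    have hℓp : ℓ ≠ p := fun h => hℓS (h ▸ hpS)
    have e1 : T (τ ^ m) = T g :=
      FinLevel.congr h₁ fun x hx => hm x (le_sup_left (a := L₁) hx)
    have e1' : T (τ ^ m)⁻¹ = T g⁻¹ := by
      have f1 : T g⁻¹ * T g = 1 := by rw [← map_mul, inv_mul_cancel, map_one]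
      have f2 : T (τ ^ m) * T (τ ^ m)⁻¹ = 1 := by rw [← map_mul, mul_inv_cancel, map_one]
      calc T (τ ^ m)⁻¹ = (T g⁻¹ * T g) * T (τ ^ m)⁻¹ := by rw [f1, one_mul]
        _ = T g⁻¹ := by rw [mul_assoc, ← e1, f2, mul_one]
    have e2 : chiK p k (τ ^ m) = chiK p k g :=
      FinLevel.congr h₂ fun x hx => hm x (le_sup_right (a := L₁) hx)
    have hinv : T τ * T τ⁻¹ = 1 := by rw [← map_mul, mul_inv_cancel, map_one]
    have hinv' : T τ⁻¹ * T τ = 1 := by rw [← map_mul, inv_mul_cancel, map_one]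
    have h3 : T τ + (ℓ : k) • T τ⁻¹ = a ℓ • (1 : Matrix (Fin n) (Fin n) k) := by
      have h := hfr ℓ hℓ hℓS A hA τ hτ
      have h4 := congrArg (fun x => x * T τ⁻¹) h
      simp only [add_mul, sub_mul, zero_mul, mul_assoc, hinv, mul_one, Matrix.smul_mul,
        one_mul] at h4
      rw [sub_add_eq_add_sub, sub_eq_zero] at h4
      exact h4
    have hxy : T τ * ((ℓ : k) • T τ⁻¹) = (ℓ : k) • (1 : Matrix (Fin n) (Fin n) k) := by
      rw [Matrix.mul_smul, hinv]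
    have hyx : ((ℓ : k) • T τ⁻¹) * T τ = (ℓ : k) • (1 : Matrix (Fin n) (Fin n) k) := by
      rw [Matrix.smul_mul, hinv']
    have h5 := dk_eq hxy hyx h3 m
    have h6 := map_dk (algebraMap k (Matrix (Fin n) (Fin n) k)) (a ℓ) (ℓ : k) m
    rw [Algebra.algebraMap_eq_smul_one, Algebra.algebraMap_eq_smul_one,
      Algebra.algebraMap_eq_smul_one, h5, smul_pow, ← map_pow T τ, ← map_pow T τ⁻¹, inv_pow, e1,
      e1', ← chiK_frob p k hℓ hA hℓp hτ, ← map_pow, e2] at h6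
    exact ⟨_, h6.symm⟩
  choose t ht using key
  exact ⟨t, ht⟩

/-- **Trace and determinant** -/
theorem trace_det_of_frob (T : GQ →* Matrix (Fin 2) (Fin 2) k) (hT : FinLevel T)
    (S : Set ℕ) (hS : S.Finite) (hpS : p ∈ S) (a : ℕ → k)
    (hfr : ∀ ℓ : ℕ, ℓ.Prime → ℓ ∉ S → ∀ A : ValuationSubring Qbar, A.LiesOverPrime ℓ →
      ∀ τ : GQ, A.IsFrobeniusAt τ ℓ → T τ * T τ - a ℓ • T τ + (ℓ : k) • 1 = 0)
    (hns : ∃ c, ∀ s : k, T c ≠ s • (1 : Matrix (Fin 2) (Fin 2) k)) :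
    (∀ g, (T g).det = chiK p k g) ∧
      ∀ ℓ : ℕ, ℓ.Prime → ℓ ∉ S → ∀ A : ValuationSubring Qbar, A.LiesOverPrime ℓ →
      ∀ τ : GQ, A.IsFrobeniusAt τ ℓ → (T τ).trace = a ℓ ∧ (T τ).det = (ℓ : k) := by
  obtain ⟨t, ht⟩ := mquad_of_frob T hT S hS hpS a hfr
  refine ⟨fun g => (ht.trace_det hns g).2, fun ℓ hℓ hℓS A hA τ hτ => ?_⟩
  have hℓp : ℓ ≠ p := fun h => hℓS (h ▸ hpS)
  obtain ⟨h1, h2⟩ := ht.trace_det hns τ
  have hinv : T τ * T τ⁻¹ = 1 := by rw [← map_mul, mul_inv_cancel, map_one]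
  have h3 : T τ + (ℓ : k) • T τ⁻¹ = a ℓ • (1 : Matrix (Fin 2) (Fin 2) k) := by
    have h := hfr ℓ hℓ hℓS A hA τ hτ
    have h4 := congrArg (fun x => x * T τ⁻¹) h
    simp only [add_mul, sub_mul, zero_mul, mul_assoc, hinv, mul_one, Matrix.smul_mul,
      one_mul] at h4
    rw [sub_add_eq_add_sub, sub_eq_zero] at h4
    exact h4
  have h4 := ht τ
  rw [chiK_frob p k hℓ hA hℓp hτ, h3] at h4
  have h5 := congrFun (congrFun h4 0) 0
  simp only [Matrix.smul_apply, Matrix.one_apply_eq, smul_eq_mul, mul_one] at h5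
  rw [h1, h2, chiK_frob p k hℓ hA hℓp hτ, h5]
  exact ⟨rfl, rfl⟩

end Rep

end Fermat.Agent.S43Glue
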