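import Fermat.Agent.S43Glue.Chi
import Fermat.Agent.DivPoly.Card
import Fermat.Agent.ECRed.FreyTwo
import Fermat.Agent.ECRed.FreyP
import Fermat.Agent.ECRed.Comp2
import Fermat.Agent.TWGal.TameInertia

set_option autoImplicit false
set_option maxHeartbeats 400000

/-! The mod `p` representation of the Frey curve is ramified at `2`. -/

namespace Fermat.Agent.S43Glue

open Fermat.Agent.GalRep Fermat.Agent.ECRed Polynomial

local notation "Qbar" => AlgebraicClosure ℚ
local notation "GQ" => Qbar ≃ₐ[ℚ] Qbar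

section Tame

variable {A : ValuationSubring Qbar} {q p : ℕ}

/-- an element with fractional valuation (denominator `p`) is moved by inertia -/
theorem exists_inertia_moves (hq : q.Prime) (hA : (q : Qbar) ∈ A.nonunits) (hp : p.Prime)
    (hpq : p ≠ q) {x : Qbar} (hx0 : x ≠ 0) {r : ℕ} (hr : ¬ p ∣ r)
    (hord : p * (ordFnAt A hq hA).ord x = r) :
    ∃ σ ∈ A.inertiaSubgroupIn ℚ, σ x ≠ x := by
  set v := ordFnAt A hq hA with hv
  have hA' : A.LiesOverPrime q := hA
  obtain ⟨σ, hσ, hmov⟩ := TWGal.exists_inertia_moving (A := A) hq hA' hp hpq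
  refine ⟨σ, hσ, fun hfix => ?_⟩
  obtain ⟨t, ht⟩ := IsAlgClosed.exists_pow_nat_eq (q : Qbar) hp.pos
  have ht0 : t ≠ 0 := by
    rintro rfl
    rw [zero_pow hp.ne_zero] at ht
    exact hq.ne_zero (by exact_mod_cast ht.symm)
  apply hmov t ht
  have hp0 : (p : ℝ) ≠ 0 := by exact_mod_cast hp.ne_zero
  -- the order of `t`
  have hvt : p * v.ord t = 1 := by
    have h1 := v.ord_pow ht0 p
    rw [ht, hv, (ordAt_q A hq hA).2] at h1
    exact h1.symm
  -- the unit `y = x / t ^ r`
  have hy0 : x / t ^ r ≠ 0 := div_ne_zero hx0 (pow_ne_zero _ ht0)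
  have hvy : v.ord (x / t ^ r) = 0 := by
    rw [div_eq_mul_inv, v.ord_mul hx0 (inv_ne_zero (pow_ne_zero _ ht0)),
      v.ord_inv _ (pow_ne_zero _ ht0), v.ord_pow ht0]
    have h1 : p * (v.ord x + -(r * v.ord t)) = 0 := by
      have : p * (v.ord x + -(r * v.ord t)) = p * v.ord x - r * (p * v.ord t) := by ring
      rw [this, hvt, hord]; ring
    rcases mul_eq_zero.mp h1 with h | h
    · exact absurd h hp0
    · exact h
  set y := x / t ^ r with hy
  have hyA : y ∈ A := by
    rw [← ordFnAt_ge A hq hA, ← hv]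
    exact Or.inr hvy.ge
  have h1 := valuation_sub_lt_of_mem_inertia (A := A) hσ hyA
  -- valuation of y is 1
  have hvy1 : A.valuation y = 1 := by
    refine le_antisymm ((A.valuation_le_one_iff y).mpr hyA) ?_
    by_contra hlt
    push Not at hlt
    have h2 : y ∈ A.nonunits := by
      rw [ValuationSubring.mem_nonunits_iff]; exact hlt
    rw [← ordFnAt_gt A hq hA, ← hv, OrdFn.gt_iff hy0, hvy] at h2
    exact lt_irrefl _ h2
  -- the root of unity `ζ = σ t / t`
  set ζ := σ t / t with hζ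
  have hσt0 : σ t ≠ 0 := (map_ne_zero σ).mpr ht0
  have hζp : ζ ^ p = 1 := by
    rw [hζ, div_pow, ← map_pow, ht, map_natCast, div_self]
    rw [← ht]
    exact pow_ne_zero _ ht0
  have hζ0 : ζ ≠ 0 := div_ne_zero hσt0 ht0
  have hσy : σ y = y / ζ ^ r := by
    rw [hy, hζ, map_div₀, map_pow, hfix, div_pow, div_div_eq_mul_div, div_mul_cancel₀ _
      (pow_ne_zero _ ht0)]
  have h3 : A.valuation ((ζ ^ r)⁻¹ - 1) < 1 := by
    have h4 : σ y - y = y * ((ζ ^ r)⁻¹ - 1) := by
      rw [hσy]; ring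
    rw [h4, map_mul, hvy1, one_mul] at h1
    exact h1
  have hqp : ¬ q ∣ p := fun h => hpq ((Nat.prime_dvd_prime_iff_eq hq hp).mp h).symm
  have h5 : (ζ ^ r)⁻¹ = 1 := by
    refine rootOfUnity_eq_of_valuation_lt hq hA' (m := p) hqp ?_ (one_pow p) h3
    rw [inv_pow, ← pow_mul, mul_comm, pow_mul, hζp, one_pow, inv_one]
  rw [inv_eq_one] at h5
  have h6 : ζ = 1 := by
    have h7 : orderOf ζ ∣ p := orderOf_dvd_of_pow_eq_one hζp
    have h8 : orderOf ζ ∣ r := orderOf_dvd_of_pow_eq_one h5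
    rcases (Nat.dvd_prime hp).mp h7 with h | h
    · exact orderOf_eq_one_iff.mp h
    · rw [h] at h8; exact absurd h8 hr
  rw [hζ, div_eq_one_iff_eq ht0] at h6
  exact h6

end Tame

section PrePsi

/-- the reduced division polynomials vanish at a node at the origin -/
lemma preNormEDS_zero {R : Type*} [CommRing R] (n : ℕ) (hn : 3 ≤ n) :
    preNormEDS' (0 : R) 0 0 n = 0 := by
  induction n using Nat.strong_induction_on with
  | _ n ih =>
    rcases Nat.lt_or_ge n 5 with h | h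
    · interval_cases n
      · simp
      · simp
    · rcases Nat.even_or_odd n with he | ho
      · obtain ⟨m, hm⟩ := he
        obtain ⟨j, rfl⟩ : ∃ j, m = j + 3 := ⟨m - 3, by omega⟩
        have h1 : n = 2 * (j + 3) := by omega
        rw [h1, preNormEDS'_even, ih (j + 3) (by omega) (by omega), ih (j + 3 + 2) (by omega) (by omega)]
        ring
      · obtain ⟨m, hm⟩ := ho
        obtain ⟨j, rfl⟩ : ∃ j, m = j + 2 := ⟨m - 2, by omega⟩
        have h1 : n = 2 * (j + 2) + 1 := by omega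
        rw [h1, preNormEDS'_odd, ih (j + 4) (by omega) (by omega), ih (j + 3) (by omega) (by omega)]
        ring

end PrePsi

section PrePsi2

variable {R : Type*} [CommRing R]

lemma eval_preΨ'_zero (W : WeierstrassCurve R) (h4 : W.b₄ = 0) (h6 : W.b₆ = 0) (h8 : W.b₈ = 0)
    {n : ℕ} (hn : 3 ≤ n) : (W.preΨ' n).eval 0 = 0 := by
  rw [WeierstrassCurve.preΨ', ← Polynomial.coe_evalRingHom, map_preNormEDS']
  have e1 : Polynomial.evalRingHom 0 (W.Ψ₂Sq ^ 2) = 0 := by
    rw [map_pow, Polynomial.coe_evalRingHom, WeierstrassCurve.Ψ₂Sq, h4, h6]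
    simp
  have e2 : Polynomial.evalRingHom 0 W.Ψ₃ = 0 := by
    rw [Polynomial.coe_evalRingHom, WeierstrassCurve.Ψ₃, h4, h6, h8]
    simp
  have e3 : Polynomial.evalRingHom 0 W.preΨ₄ = 0 := by
    rw [Polynomial.coe_evalRingHom, WeierstrassCurve.preΨ₄, h4, h6, h8]
    simp
  rw [e1, e2, e3]
  exact preNormEDS_zero n hn

end PrePsi2

section Root

variable {A : ValuationSubring Qbar} {q : ℕ}

/-- an integral polynomial with unit leading coefficient and non unit constant coefficient has a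
root in the maximal ideal -/
theorem exists_root_nonunit (hq : q.Prime) (hA : (q : Qbar) ∈ A.nonunits) (f : ℤ[X])
    (hlead : ¬ (q : ℤ) ∣ f.leadingCoeff) (h0 : (q : ℤ) ∣ f.coeff 0) :
    ∃ x : Qbar, (f.map (Int.castRingHom Qbar)).eval x = 0 ∧ x ∈ A.nonunits := by
  have hf : f ≠ 0 := by
    rintro rfl
    simp at hlead
  have hinj : Function.Injective (Int.castRingHom Qbar) := Int.cast_injective
  set g := f.map (Int.castRingHom Qbar) with hg
  have hg0 : g ≠ 0 := (Polynomial.map_ne_zero_iff hinj).mpr hf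
  have hsp : g.Splits := IsAlgClosed.splits g
  have hprod := hsp.coeff_zero_eq_leadingCoeff_mul_prod_roots
  have hgl : g.leadingCoeff = (f.leadingCoeff : Qbar) := by
    rw [hg, Polynomial.leadingCoeff_map_of_injective hinj]
    rfl
  have hgc : g.coeff 0 = (f.coeff 0 : Qbar) := by
    rw [hg, Polynomial.coeff_map]
    rfl
  have hvl : A.valuation g.leadingCoeff = 1 := by
    rw [hgl]
    exact val_int_of_coprime A hq hA hlead
  have hvc : A.valuation (g.coeff 0) < 1 := by
    obtain ⟨c, hc⟩ := h0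
    rw [hgc, hc]
    push_cast
    rw [map_mul]
    rw [ValuationSubring.mem_nonunits_iff] at hA
    exact mul_lt_one_of_nonneg_of_lt_one_left zero_le hA (val_int_le A c)
  by_contra hcon
  push Not at hcon
  have hroots : ∀ x ∈ g.roots, 1 ≤ A.valuation x := by
    intro x hx
    have h1 := hcon x ((Polynomial.mem_roots hg0).mp hx)
    rw [ValuationSubring.mem_nonunits_iff, not_lt] at h1
    exact h1
  have hge : ∀ s : Multiset Qbar, (∀ x ∈ s, 1 ≤ A.valuation x) → 1 ≤ A.valuation s.prod := by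
    intro s
    induction s using Multiset.induction_on with
    | empty => intro _; rw [Multiset.prod_zero, map_one]
    | cons a s ih =>
      intro h
      rw [Multiset.prod_cons, map_mul]
      exact one_le_mul_of_one_le_of_one_le (h a (Multiset.mem_cons_self a s))
        (ih fun x hx => h x (Multiset.mem_cons_of_mem hx))
  have h2 := hge _ hroots
  rw [hprod, map_mul, map_mul, map_pow, Valuation.map_neg, map_one, one_pow, hvl, one_mul,
    one_mul] at hvc
  exact absurd h2 (not_le.mpr hvc)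

end Root

section Frey

variable (P : FreyPackage)

open WeierstrassCurve WeierstrassCurve.Affine
open scoped WeierstrassCurve.Affine

lemma thirtytwo_dvd : (32 : ℤ) ∣ P.b ^ P.p := by
  have h1 : (2 : ℤ) ^ P.p ∣ P.b ^ P.p := pow_dvd_pow_of_dvd (Frey.b_even P) P.p
  have h2 : (2 : ℤ) ^ 5 ∣ (2 : ℤ) ^ P.p := pow_dvd_pow 2 P.hp5
  exact (by norm_num : (32 : ℤ) = 2 ^ 5) ▸ h2.trans h1

lemma freyInt_a₄ : ∃ c : ℤ, P.freyCurveInt.a₄ = 2 * c ∧ -(P.a ^ P.p) * P.b ^ P.p = 32 * c := by
  obtain ⟨c, hc⟩ := thirtytwo_dvd P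
  refine ⟨-(P.a ^ P.p) * c, ?_, by rw [hc]; ring⟩
  simp only [FreyPackage.freyCurveInt]
  rw [hc, show -(P.a ^ P.p) * (32 * c) = 16 * (2 * (-(P.a ^ P.p) * c)) by ring]
  exact Int.mul_ediv_cancel_left _ (by norm_num)

lemma freyInt_a₂ : ∃ c : ℤ, P.freyCurveInt.a₂ = c ∧ P.b ^ P.p - 1 - P.a ^ P.p = 4 * c := by
  obtain ⟨c, hc⟩ := Frey.four_dvd P
  refine ⟨c, ?_, hc⟩
  simp only [FreyPackage.freyCurveInt]
  rw [hc]
  exact Int.mul_ediv_cancel_left _ (by norm_num)

/-- the integral Frey curve is a model of the Frey curve -/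
lemma freyInt_map {K : Type*} [Field K] [CharZero K] [Algebra ℚ K] :
    P.freyCurveInt.map (Int.castRingHom K) = P.freyCurve.map (algebraMap ℚ K) := by
  obtain ⟨c, hc, hc'⟩ := freyInt_a₄ P
  obtain ⟨d, hd, hd'⟩ := freyInt_a₂ P
  have e1 : (-((P.a : K) ^ P.p) * (P.b : K) ^ P.p) = 32 * c := by exact_mod_cast congrArg (Int.cast : ℤ → K) hc'
  have e2 : ((P.b : K) ^ P.p - 1 - (P.a : K) ^ P.p) = 4 * d := by exact_mod_cast congrArg (Int.cast : ℤ → K) hd'
  ext
  · simp [FreyPackage.freyCurveInt, FreyPackage.freyCurve]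
  · simp only [WeierstrassCurve.map_a₂]
    rw [hd]
    simp only [FreyPackage.freyCurve, eq_intCast, map_div₀, map_sub, map_pow, map_intCast, map_one,
      map_ofNat]
    rw [e2]; ring
  · simp [FreyPackage.freyCurveInt, FreyPackage.freyCurve]
  · simp only [WeierstrassCurve.map_a₄]
    rw [hc]
    simp only [FreyPackage.freyCurve, eq_intCast, map_div₀, map_neg, map_mul, map_pow, map_intCast,
      map_ofNat]
    rw [e1]; push_cast; ring
  · simp [FreyPackage.freyCurveInt, FreyPackage.freyCurve]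

/-- a `p`-torsion point whose `x`-coordinate reduces to the node at `2` -/
theorem exists_torsion_node {A : ValuationSubring Qbar} (hA : ((2 : ℕ) : Qbar) ∈ A.nonunits) :
    ∃ Q : ((P.freyCurve : Affine ℚ)⁄Qbar).Point, Q ≠ 0 ∧ P.p • Q = 0 ∧
      xN Q ∈ A.nonunits := by
  have h3 : 3 ≤ P.p := by have := P.hp5; omega
  have hpz : ((P.p : ℕ) : ℤ) ≠ 0 := by exact_mod_cast P.hp0
  have hodd : ¬ Even P.p := Nat.not_even_iff_odd.mpr P.hp_odd
  obtain ⟨x, hx, hxA⟩ := exists_root_nonunit Nat.prime_two hA (P.freyCurveInt.preΨ' P.p) (by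
      rw [WeierstrassCurve.leadingCoeff_preΨ' _ hpz, if_neg hodd]
      intro h
      have h1 : 2 ∣ P.p := by exact_mod_cast h
      exact hodd (even_iff_two_dvd.mpr h1)) (by
      rw [← ZMod.intCast_zmod_eq_zero_iff_dvd]
      obtain ⟨c, hc, -⟩ := freyInt_a₄ P
      have e := eval_preΨ'_zero (P.freyCurveInt.map (Int.castRingHom (ZMod 2))) (n := P.p) ?_ ?_ ?_ h3
      · rw [WeierstrassCurve.map_preΨ', Polynomial.eval_map, Polynomial.eval₂_at_zero] at e
        exact e
      · rw [WeierstrassCurve.map_b₄, WeierstrassCurve.b₄, hc]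
        simp only [FreyPackage.freyCurveInt]
        push_cast
        simp [show (2 : ZMod 2) = 0 from rfl]
      · rw [WeierstrassCurve.map_b₆, WeierstrassCurve.b₆]
        simp [FreyPackage.freyCurveInt]
      · rw [WeierstrassCurve.map_b₈, WeierstrassCurve.b₈, hc]
        simp [FreyPackage.freyCurveInt, show (2 : ZMod 2) = 0 from rfl])
  have hΔ : (((P.freyCurve : Affine ℚ)⁄Qbar) : Affine Qbar).Δ ≠ 0 := Frey.frey_Δ_ne (P := P) (K := Qbar)
  obtain ⟨Q, hQ0, hQx⟩ := DivPoly.exists_point hΔ x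
  refine ⟨Q, hQ0, ?_, by rw [hQx]; exact hxA⟩
  rw [DivPoly.nsmul_eq_zero_iff_odd hQ0 P.hp_odd, hQx]
  have h4 := WeierstrassCurve.map_preΨ' (W := P.freyCurveInt) (f := Int.castRingHom Qbar) P.p
  rw [freyInt_map P] at h4
  rw [← h4] at hx
  exact hx

/-- **The mod `p` representation of the Frey curve is ramified at `2`.** -/
theorem frey_ramified_two {A : ValuationSubring Qbar} (hA : ((2 : ℕ) : Qbar) ∈ A.nonunits) :
    ∃ σ ∈ A.inertiaSubgroupIn ℚ, ∃ Q : ((P.freyCurve : Affine ℚ)⁄Qbar).Point,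
      P.p • Q = 0 ∧ σ • Q ≠ Q := by
  obtain ⟨Q, hQ0, hQ, hQA⟩ := exists_torsion_node P hA
  set v := ordFnAt A Nat.prime_two hA with hv
  obtain ⟨k, hk, hM⟩ := Frey.multAt_two (P := P) A hA
  rw [← hv] at hM
  have hp5 := P.hp5
  have hpn : v.Eq 0 ((P.p : ℕ) : Qbar) := by
    have := Frey.eq_zero_of_not_dvd (A := A) Nat.prime_two hA (n := (P.p : ℤ)) (by
      intro h
      have h1 : 2 ∣ P.p := by exact_mod_cast h
      have := P.hp_odd
      rw [← Nat.not_even_iff_odd] at this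
      exact this (even_iff_two_dvd.mpr h1))
    simpa using this
  obtain ⟨ha0, ham⟩ := KummerLine.comp_range hM hpn P.hp_odd hQ
  have hx := KummerLine.comp_eq hM hpn P.hp_odd hQ0 hQ
  obtain ⟨j, hj⟩ := KummerLine.comp_torsion hM hpn P.hp_odd hQ
  have hN : (Frey.kum P (K := Qbar)).N Q = xN Q := rfl
  rw [KummerLine.comp_ne hQ0, hN] at ha0 ham hj
  have hxQ0 : xN Q ≠ 0 := by
    rw [← hN]; exact hx.ne
  have hpos : 0 < v.ord (xN Q) := by
    rw [hv]
    exact (OrdFn.gt_iff hxQ0).mp ((ordFnAt_gt A Nat.prime_two hA (xN Q)).mpr hQA)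
  have hp0 : (0 : ℝ) < P.p := by exact_mod_cast P.hppos
  have hm0 : (0 : ℝ) < P.p * k - 4 := hM.pos
  -- `0 < j < p / 2`
  have hj0 : 0 < j := by
    have h1 : 0 < 2 * ((P.p : ℝ) * k - 4) * j := by rw [← hj]; positivity
    have h2 : (0 : ℝ) < j := by
      by_contra hcon
      push Not at hcon
      nlinarith
    exact_mod_cast h2
  have hjp : 2 * j < P.p := by
    have h1 : 2 * ((P.p : ℝ) * k - 4) * j < P.p * (P.p * k - 4) := by
      rw [← hj]; exact mul_lt_mul_of_pos_left ham hp0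
    have h2 : (2 : ℝ) * j < P.p := by
      by_contra hcon
      push Not at hcon
      nlinarith
    exact_mod_cast h2
  have hm0' : 0 < (P.p : ℤ) * k - 4 := by exact_mod_cast hm0
  -- the numerator
  obtain ⟨r, hr⟩ : ∃ r : ℕ, (r : ℤ) = 2 * (P.p * k - 4) * j :=
    ⟨(2 * (P.p * k - 4) * j).toNat, Int.toNat_of_nonneg (by positivity)⟩
  have hpr : ¬ P.p ∣ r := by
    intro h
    have h1 : (P.p : ℤ) ∣ 2 * (P.p * k - 4) * j := by
      rw [← hr]; exact_mod_cast h
    have h2 : (P.p : ℤ) ∣ 8 * j := by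
      have h3 : 8 * j = P.p * (2 * k * j) - 2 * (P.p * k - 4) * j := by ring
      rw [h3]
      exact dvd_sub (dvd_mul_right _ _) h1
    have hpI : Prime (P.p : ℤ) := Nat.prime_iff_prime_int.mp P.pp
    rcases hpI.dvd_or_dvd h2 with h | h
    · have h4 : P.p ∣ 2 ^ 3 := by exact_mod_cast h
      have h5 := P.pp.dvd_of_dvd_pow h4
      have := Nat.le_of_dvd (by norm_num) h5
      omega
    · have := Int.le_of_dvd hj0 h
      omega
  have hp2 : P.p ≠ 2 := by omega
  have hord : P.p * v.ord (xN Q) = r := by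
    rw [hj]
    have : ((r : ℤ) : ℝ) = ((2 * (P.p * k - 4) * j : ℤ) : ℝ) := by rw [hr]
    push_cast at this
    exact this.symm
  obtain ⟨σ, hσ, hmov⟩ := exists_inertia_moves Nat.prime_two hA P.pp hp2 hxQ0 hpr hord
  refine ⟨σ, hσ, Q, hQ, fun hfix => hmov ?_⟩
  have h1 := N_smul (W := (P.freyCurve : Affine ℚ)) σ Q
  rw [hfix] at h1
  exact h1.symm

end Frey

end Fermat.Agent.S43Glue
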